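/-
GATE-J brick FROB (helper77), file 2: for a number field `E` the sum of `N P ^ (-s)` over the
degree one primes equals `log (1 / (s - 1))` up to a bounded error, as `s → 1⁺`.
-/
import Fermat.Agent.S14.NonSplit.Export

set_option autoImplicit false

open NumberField

namespace Fermat.Agent.GJ.Frob

open Fermat.Agent.S14.NonSplit

variable (E : Type*) [Field E] [NumberField E]

/-- `primeSum E X s = log (1 / (s - 1)) + O(1)` for `s` close to `1` and `X` large. -/
theorem exists_primeSum_bounds :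
    ∃ C δ : ℝ, 0 < δ ∧ ∀ s : ℝ, 1 < s → s < 1 + δ →
      (∀ X : ℕ, primeSum E X s ≤ Real.log (1 / (s - 1)) + C) ∧
      (∃ X₀ : ℕ, ∀ X : ℕ, X₀ ≤ X → Real.log (1 / (s - 1)) - C ≤ primeSum E X s) := by
  obtain ⟨δ, hδ, hb⟩ := exists_zetaR_bounds E
  have hρ := dedekindZeta_residue_pos E
  set ρ := dedekindZeta_residue E with hρdef
  refine ⟨max (Real.log (2 * ρ) + zetaR E 2) (lowerConst E - Real.log (ρ / 4)), δ, hδ, ?_⟩
  intro s hs1 hs2
  obtain ⟨hlo, hup⟩ := hb s hs1 hs2
  have hs0 : 0 < s - 1 := by linarith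
  have hinv : 0 < 1 / (s - 1) := by positivity
  constructor
  · intro X
    have h1 := exp_primeSum_le E hs1 X
    have h2 : zetaR E s ≤ (1 / (s - 1)) * (2 * ρ) := by
      rw [one_div, inv_mul_eq_div, le_div_iff₀ hs0]
      linarith
    have h3 : Real.exp (primeSum E X s) ≤
        Real.exp (Real.log (1 / (s - 1)) + (Real.log (2 * ρ) + zetaR E 2)) := by
      rw [Real.exp_add, Real.exp_add, Real.exp_log hinv, Real.exp_log (by positivity)]
      calc Real.exp (primeSum E X s) ≤ zetaR E s * Real.exp (zetaR E 2) := h1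
        _ ≤ (1 / (s - 1) * (2 * ρ)) * Real.exp (zetaR E 2) :=
            mul_le_mul_of_nonneg_right h2 (Real.exp_pos _).le
        _ = 1 / (s - 1) * (2 * ρ * Real.exp (zetaR E 2)) := by ring
    have h4 := Real.exp_le_exp.mp h3
    have h5 := le_max_left (Real.log (2 * ρ) + zetaR E 2) (lowerConst E - Real.log (ρ / 4))
    linarith
  · have hε : 0 < ρ / (4 * (s - 1)) := by positivity
    obtain ⟨X₀, hX₀⟩ := exists_zetaR_le_exp_primeSum_add E hs1 hε
    refine ⟨X₀, fun X hX => ?_⟩
    have hmono := primeSum_mono E hX s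
    have h2 : ρ / (2 * (s - 1)) ≤ zetaR E s := by
      rw [div_le_iff₀ (by positivity)]
      linarith
    have h3 : Real.exp (Real.log (ρ / 4) + Real.log (1 / (s - 1))) ≤
        Real.exp (primeSum E X₀ s + lowerConst E) := by
      rw [Real.exp_add, Real.exp_log hinv, Real.exp_log (by positivity)]
      have h4 : ρ / (2 * (s - 1)) - ρ / (4 * (s - 1)) = ρ / 4 * (1 / (s - 1)) := by
        field_simp
        ring
      linarith
    have h4 := Real.exp_le_exp.mp h3
    have h5 := le_max_right (Real.log (2 * ρ) + zetaR E 2) (lowerConst E - Real.log (ρ / 4))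
    linarith

end Fermat.Agent.GJ.Frob
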