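/-
GATE-J brick FROB (helper77), file 4: the combinatorial inversion over the subgroup lattice of a
finite group.  If weighted sums over `{u | σ u ∈ M}` are `(|M| / |H|) * ℓ + O(1)` for every
subgroup `M`, then the weighted sums over `{u | ⟨σ u⟩ = M}` are `(gen M / |H|) * ℓ + O(1)`, where
`gen M` is the number of generators of `M`.
-/
import Mathlib

set_option autoImplicit false

namespace Fermat.Agent.GJ.Frob

variable {H : Type*} [Group H] {ι : Type*}

/-- The sum of `w u` over the `u ∈ U` with `σ u ∈ M`. -/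
noncomputable def sumIn (σ : ι → H) (U : Finset ι) (w : ι → ℝ) (M : Subgroup H) : ℝ :=
  open Classical in ∑ u ∈ U.filter (fun u => σ u ∈ M), w u

/-- The sum of `w u` over the `u ∈ U` with `⟨σ u⟩ = M`. -/
noncomputable def sumGen (σ : ι → H) (U : Finset ι) (w : ι → ℝ) (M : Subgroup H) : ℝ :=
  open Classical in ∑ u ∈ U.filter (fun u => Subgroup.zpowers (σ u) = M), w u

/-- `sumIn` is the sum of the `sumGen` over the subgroups. -/
theorem sumIn_eq_sum_sumGen [Fintype (Subgroup H)] (σ : ι → H) (U : Finset ι) (w : ι → ℝ)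
    (M : Subgroup H) :
    sumIn σ U w M =
      open Classical in ∑ M' ∈ (Finset.univ : Finset (Subgroup H)).filter (fun M' => M' ≤ M),
        sumGen σ U w M' := by
  classical
  unfold sumIn sumGen
  rw [← Finset.sum_fiberwise_of_maps_to (s := U.filter (fun u => σ u ∈ M))
    (t := (Finset.univ : Finset (Subgroup H)).filter (fun M' => M' ≤ M))
    (g := fun u => Subgroup.zpowers (σ u)) (fun u hu => by
      rw [Finset.mem_filter] at hu ⊢
      exact ⟨Finset.mem_univ _, (Subgroup.zpowers_le).mpr hu.2⟩)]
  refine Finset.sum_congr rfl fun M' hM' => ?_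
  rw [Finset.mem_filter] at hM'
  rw [Finset.filter_filter]
  refine Finset.sum_congr (Finset.filter_congr fun u _ => ?_) fun _ _ => rfl
  constructor
  · exact fun h => h.2
  · intro h
    refine ⟨hM'.2 ?_, h⟩
    rw [← h]
    exact Subgroup.mem_zpowers _

variable [Finite H]

/-- The number of generators of `M`, as a real number. -/
noncomputable def genCount (M : Subgroup H) : ℝ :=
  sumGen (id : H → H) (@Finset.univ H (Fintype.ofFinite H)) (fun _ => 1) M

theorem genCount_nonneg (M : Subgroup H) : 0 ≤ genCount M := by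
  unfold genCount sumGen
  exact Finset.sum_nonneg fun _ _ => zero_le_one

theorem genCount_top_pos [IsCyclic H] : 0 < genCount (⊤ : Subgroup H) := by
  classical
  letI := Fintype.ofFinite H
  obtain ⟨g, hg⟩ := IsCyclic.exists_generator (α := H)
  unfold genCount sumGen
  refine Finset.sum_pos' (fun _ _ => zero_le_one) ⟨g, ?_, zero_lt_one⟩
  rw [Finset.mem_filter]
  refine ⟨Finset.mem_univ _, ?_⟩
  rw [eq_top_iff]
  intro x _
  exact hg x

theorem natCard_eq_sumIn (M : Subgroup H) :
    (Nat.card M : ℝ) =
      sumIn (id : H → H) (@Finset.univ H (Fintype.ofFinite H)) (fun _ => 1) M := by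
  classical
  letI := Fintype.ofFinite H
  unfold sumIn
  rw [Finset.sum_const, nsmul_eq_mul, mul_one, Nat.card_eq_fintype_card, Fintype.card_subtype]
  congr 2

/-- The inversion. -/
theorem exists_sumGen_bound (σ : ι → H) (C : ℝ) :
    ∃ D : ℝ, ∀ (U : Finset ι) (w : ι → ℝ) (ℓ : ℝ),
      (∀ M : Subgroup H, |sumIn σ U w M - (Nat.card M : ℝ) / (Nat.card H : ℝ) * ℓ| ≤ C) →
      ∀ M : Subgroup H, |sumGen σ U w M - genCount M / (Nat.card H : ℝ) * ℓ| ≤ D := by
  classical
  letI := Fintype.ofFinite H
  letI := Fintype.ofFinite (Subgroup H)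
  set N : ℝ := (Fintype.card (Subgroup H) : ℝ) with hN
  have key : ∀ k : ℕ, ∃ D : ℝ, ∀ (U : Finset ι) (w : ι → ℝ) (ℓ : ℝ),
      (∀ M : Subgroup H, |sumIn σ U w M - (Nat.card M : ℝ) / (Nat.card H : ℝ) * ℓ| ≤ C) →
      ∀ M : Subgroup H, Nat.card M ≤ k →
        |sumGen σ U w M - genCount M / (Nat.card H : ℝ) * ℓ| ≤ D := by
    intro k
    induction k with
    | zero =>
      refine ⟨0, fun U w ℓ _ M hM => ?_⟩
      have : 0 < Nat.card M := Nat.card_pos
      omega
    | succ k ih =>
      obtain ⟨D, hD⟩ := ih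
      refine ⟨C + N * |D|, fun U w ℓ hyp M hM => ?_⟩
      have hsplit : (Finset.univ : Finset (Subgroup H)).filter (fun M' => M' ≤ M) =
          insert M ((Finset.univ : Finset (Subgroup H)).filter (fun M' => M' < M)) := by
        ext M'
        simp only [Finset.mem_filter, Finset.mem_univ, true_and, Finset.mem_insert]
        rw [le_iff_eq_or_lt]
      have hnot : M ∉ (Finset.univ : Finset (Subgroup H)).filter (fun M' => M' < M) := by
        simp
      have h1 := sumIn_eq_sum_sumGen σ U w M
      have h2 := sumIn_eq_sum_sumGen (id : H → H) Finset.univ (fun _ => (1 : ℝ)) M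
      rw [← natCard_eq_sumIn M] at h2
      have h1' : sumIn σ U w M = sumGen σ U w M +
          ∑ M' ∈ (Finset.univ : Finset (Subgroup H)).filter (fun M' => M' < M),
            sumGen σ U w M' := by
        rw [h1, hsplit, Finset.sum_insert hnot]
      have h2' : (Nat.card M : ℝ) = genCount M +
          ∑ M' ∈ (Finset.univ : Finset (Subgroup H)).filter (fun M' => M' < M),
            genCount M' := by
        rw [h2, hsplit, Finset.sum_insert hnot]
        rfl
      have hlt : ∀ M' ∈ (Finset.univ : Finset (Subgroup H)).filter (fun M' => M' < M),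
          |sumGen σ U w M' - genCount M' / (Nat.card H : ℝ) * ℓ| ≤ |D| := by
        intro M' hM'
        rw [Finset.mem_filter] at hM'
        refine (hD U w ℓ hyp M' ?_).trans (le_abs_self D)
        by_contra hcon
        have hge : Nat.card M ≤ Nat.card M' := by omega
        exact hM'.2.ne (Subgroup.eq_of_le_of_card_ge hM'.2.le hge)
      have heq : sumGen σ U w M - genCount M / (Nat.card H : ℝ) * ℓ =
          (sumIn σ U w M - (Nat.card M : ℝ) / (Nat.card H : ℝ) * ℓ) -
            ∑ M' ∈ (Finset.univ : Finset (Subgroup H)).filter (fun M' => M' < M),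
              (sumGen σ U w M' - genCount M' / (Nat.card H : ℝ) * ℓ) := by
        rw [h1', h2', Finset.sum_sub_distrib, ← Finset.sum_mul, ← Finset.sum_div]
        ring
      rw [heq]
      refine (abs_sub _ _).trans (add_le_add (hyp M) ?_)
      refine (Finset.abs_sum_le_sum_abs _ _).trans ?_
      refine (Finset.sum_le_card_nsmul _ _ _ hlt).trans ?_
      rw [nsmul_eq_mul]
      refine mul_le_mul_of_nonneg_right ?_ (abs_nonneg D)
      rw [hN]
      exact_mod_cast Finset.card_le_univ _
  obtain ⟨D, hD⟩ := key (Nat.card H)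
  exact ⟨D, fun U w ℓ hyp M => hD U w ℓ hyp M (Subgroup.card_le_card_group M)⟩

end Fermat.Agent.GJ.Frob
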