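/-
GATE-J brick FROB (helper77), file 3: two-sided comparison, for a Galois extension `E/F` of number
fields, between the sum over the degree one primes of `E` and `[E:F]` times the sum over the
degree one primes of `F` which split completely in `E`.
-/
import Fermat.Agent.S14.NonSplit.Export
import Fermat.Agent.S14.NonSplit.Compare

set_option autoImplicit false

open NumberField

namespace Fermat.Agent.GJ.Frob

open Fermat.Agent.S14.NonSplit

variable (F E : Type*) [Field F] [NumberField F] [Field E] [NumberField E] [Algebra F E]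

/-- `𝔭` has a prime of `E` above it with `e = f = 1`. -/
def SplitsIn (𝔭 : Ideal (𝓞 F)) : Prop :=
  ∃ Q : Ideal (𝓞 E), Q.IsPrime ∧ Q.under (𝓞 F) = 𝔭 ∧ Q.ramificationIdx (𝓞 F) = 1 ∧
    Q.inertiaDeg (𝓞 F) = 1

/-- The degree one primes of `F` of norm at most `X`, outside `Bad`, which split in `E`. -/
noncomputable def splitPrimes (Bad : Finset (Ideal (𝓞 F))) (X : ℕ) : Finset (Ideal (𝓞 F)) :=
  open Classical in
  (degOnePrimes F X).filter (fun 𝔭 => 𝔭 ∉ Bad ∧ SplitsIn F E 𝔭)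

variable {F E} in
omit [NumberField E] in
lemma mem_splitPrimes {Bad : Finset (Ideal (𝓞 F))} {X : ℕ} {𝔭 : Ideal (𝓞 F)} :
    𝔭 ∈ splitPrimes F E Bad X ↔ 𝔭 ∈ degOnePrimes F X ∧ 𝔭 ∉ Bad ∧ SplitsIn F E 𝔭 := by
  classical
  simp [splitPrimes]

/-- The sum of `N 𝔭 ^ (-s)` over `splitPrimes`. -/
noncomputable def splitSum (Bad : Finset (Ideal (𝓞 F))) (X : ℕ) (s : ℝ) : ℝ :=
  ∑ 𝔭 ∈ splitPrimes F E Bad X, (Ideal.absNorm 𝔭 : ℝ) ^ (-s)

lemma splitPrimes_spec (Bad : Finset (Ideal (𝓞 F))) (X : ℕ) :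
    ∀ 𝔭 ∈ splitPrimes F E Bad X, 𝔭.IsPrime ∧ 𝔭 ≠ ⊥ ∧ ∃ P : Ideal (𝓞 E), P.IsPrime ∧
      P.under (𝓞 F) = 𝔭 ∧ P.ramificationIdx (𝓞 F) = 1 ∧ P.inertiaDeg (𝓞 F) = 1 := by
  intro 𝔭 h𝔭
  rw [mem_splitPrimes] at h𝔭
  exact ⟨(mem_degOnePrimes.mp h𝔭.1).1, ne_bot_of_mem_degOnePrimes h𝔭.1, h𝔭.2.2⟩

variable [IsGalois F E]

/-- Lower comparison. -/
theorem finrank_mul_splitSum_le (Bad : Finset (Ideal (𝓞 F))) (X : ℕ) (s : ℝ) :
    (Module.finrank F E : ℝ) * splitSum F E Bad X s ≤ primeSum E X s := by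
  have hT := splitPrimes_spec F E Bad X
  refine mul_sum_le_sum (L := E) _ hT (degOnePrimes E X) ?_
    (fun n : ℕ => (n : ℝ) ^ (-s)) (fun n => Real.rpow_nonneg (Nat.cast_nonneg n) _)
  intro P hP hPT
  have h1 := mem_degOnePrimes.mp (mem_splitPrimes.mp hPT).1
  obtain ⟨-, -, P₀, hP₀, hP₀𝔭, he, hf⟩ := hT _ hPT
  have hN : Ideal.absNorm P = Ideal.absNorm (P.under (𝓞 F)) :=
    ((split_all P₀ hP₀𝔭 he hf).1 P hP rfl).2.2
  exact mem_degOnePrimes.mpr ⟨hP, hN ▸ h1.2.1, hN ▸ h1.2.2⟩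

/-- The number of primes of `E` above a prime of `F` is at most `[E:F]`. -/
theorem ncard_primesOver_le (𝔭 : Ideal (𝓞 F)) [𝔭.IsPrime] :
    (𝔭.primesOver (𝓞 E)).ncard ≤ Module.finrank F E := by
  have := isGaloisGroup_ringOfIntegers F E
  have h := Ideal.ncard_primesOver_mul_ramificationIdxIn_mul_inertiaDegIn 𝔭 (𝓞 E) (E ≃ₐ[F] E)
  rw [IsGalois.card_aut_eq_finrank] at h
  have hpos : 0 < Module.finrank F E := Module.finrank_pos
  rcases Nat.eq_zero_or_pos (𝔭.ramificationIdxIn (𝓞 E) * 𝔭.inertiaDegIn (𝓞 E)) with h0 | h0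
  · rw [h0, mul_zero] at h
    omega
  · calc (𝔭.primesOver (𝓞 E)).ncard
        ≤ (𝔭.primesOver (𝓞 E)).ncard * (𝔭.ramificationIdxIn (𝓞 E) * 𝔭.inertiaDegIn (𝓞 E)) :=
          Nat.le_mul_of_pos_right _ h0
      _ = Module.finrank F E := h

omit [IsGalois F E] in
/-- A degree one prime of `E` lies over a degree one prime of `F` with the same norm and has
inertia degree one. -/
theorem under_degOne {X : ℕ} {Q : Ideal (𝓞 E)} (hQ : Q ∈ degOnePrimes E X) :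
    Q.inertiaDeg (𝓞 F) = 1 ∧ Ideal.absNorm (Q.under (𝓞 F)) = Ideal.absNorm Q ∧
      Q.under (𝓞 F) ∈ degOnePrimes F X := by
  obtain ⟨hQp, hQN, hQX⟩ := mem_degOnePrimes.mp hQ
  haveI := hQp
  haveI hlo : Q.LiesOver (Q.under (𝓞 F)) := ⟨rfl⟩
  have hpow := Ideal.absNorm_pow_inertiaDeg (Q.under (𝓞 F)) Q
  have hf : Q.inertiaDeg (𝓞 F) = 1 := by
    rw [← hpow] at hQN
    exact Nat.Prime.eq_one_of_pow hQN
  rw [hf, pow_one] at hpow
  refine ⟨hf, hpow, mem_degOnePrimes.mpr ⟨inferInstance, hpow ▸ hQN, hpow ▸ hQX⟩⟩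

/-- Upper comparison. -/
theorem primeSum_le_finrank_mul_splitSum_add (Bad : Finset (Ideal (𝓞 F)))
    (hBad : ∀ Q : Ideal (𝓞 E), Q.IsPrime → Q ≠ ⊥ → Q.under (𝓞 F) ∉ Bad →
      Q.ramificationIdx (𝓞 F) = 1) (X : ℕ) {s : ℝ} (hs : 0 ≤ s) :
    primeSum E X s ≤ (Module.finrank F E : ℝ) * splitSum F E Bad X s +
      (Module.finrank F E : ℝ) * Bad.card := by
  classical
  obtain ⟨T', hT', -, hsum⟩ := exists_finset_above (L := E) _ (splitPrimes_spec F E Bad X)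
  unfold primeSum
  rw [← Finset.sum_filter_add_sum_filter_not (degOnePrimes E X)
    (fun Q => Q.under (𝓞 F) ∉ Bad)]
  refine add_le_add ?_ ?_
  · -- the good part
    unfold splitSum
    rw [← hsum (fun n : ℕ => (n : ℝ) ^ (-s))]
    refine Finset.sum_le_sum_of_subset_of_nonneg ?_ (fun P _ _ => by positivity)
    intro Q hQ
    rw [Finset.mem_filter] at hQ
    obtain ⟨hQ1, hQ2⟩ := hQ
    obtain ⟨hf, hN, hdeg⟩ := under_degOne F E hQ1
    have hQp := (mem_degOnePrimes.mp hQ1).1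
    rw [hT']
    refine ⟨hQp, mem_splitPrimes.mpr ⟨hdeg, hQ2, Q, hQp, rfl, ?_, hf⟩⟩
    exact hBad Q hQp (ne_bot_of_mem_degOnePrimes hQ1) hQ2
  · -- the bad part
    have h1 : ∀ Q ∈ (degOnePrimes E X).filter (fun Q => ¬ Q.under (𝓞 F) ∉ Bad),
        (Ideal.absNorm Q : ℝ) ^ (-s) ≤ 1 := by
      intro Q hQ
      have hne := ne_bot_of_mem_degOnePrimes (Finset.mem_filter.mp hQ).1
      have h1 : (1 : ℝ) ≤ (Ideal.absNorm Q : ℝ) := by
        have : Ideal.absNorm Q ≠ 0 := by rwa [Ne, Ideal.absNorm_eq_zero_iff]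
        exact_mod_cast Nat.one_le_iff_ne_zero.mpr this
      exact Real.rpow_le_one_of_one_le_of_nonpos h1 (by linarith)
    refine (Finset.sum_le_card_nsmul _ _ 1 h1).trans ?_
    rw [nsmul_eq_mul, mul_one]
    have hmaps : ∀ Q ∈ (degOnePrimes E X).filter (fun Q => ¬ Q.under (𝓞 F) ∉ Bad),
        Q.under (𝓞 F) ∈ Bad := fun Q hQ => not_not.mp (Finset.mem_filter.mp hQ).2
    rw [Finset.card_eq_sum_card_fiberwise hmaps]
    have h2 : ∀ 𝔭 ∈ Bad, (((degOnePrimes E X).filter (fun Q => ¬ Q.under (𝓞 F) ∉ Bad)).filter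
        (fun Q => Q.under (𝓞 F) = 𝔭)).card ≤ Module.finrank F E := by
      intro 𝔭 _
      by_cases hemp : (((degOnePrimes E X).filter (fun Q => ¬ Q.under (𝓞 F) ∉ Bad)).filter
        (fun Q => Q.under (𝓞 F) = 𝔭)) = ∅
      · rw [hemp]; simp
      obtain ⟨Q₀, hQ₀⟩ := Finset.nonempty_iff_ne_empty.mpr hemp
      rw [Finset.mem_filter, Finset.mem_filter] at hQ₀
      have hQ₀p := (mem_degOnePrimes.mp hQ₀.1.1).1
      haveI : 𝔭.IsPrime := by
        rw [← hQ₀.2]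
        infer_instance
      refine le_trans ?_ (ncard_primesOver_le F E 𝔭)
      rw [← Set.ncard_coe_finset]
      refine Set.ncard_le_ncard ?_ (Algebra.QuasiFinite.finite_primesOver 𝔭)
      intro Q hQ
      rw [Finset.mem_coe, Finset.mem_filter, Finset.mem_filter] at hQ
      exact ⟨(mem_degOnePrimes.mp hQ.1.1).1, ⟨hQ.2.symm⟩⟩
    calc ((∑ 𝔭 ∈ Bad, (((degOnePrimes E X).filter (fun Q => ¬ Q.under (𝓞 F) ∉ Bad)).filter
          (fun Q => Q.under (𝓞 F) = 𝔭)).card : ℕ) : ℝ)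
        ≤ ((∑ _𝔭 ∈ Bad, Module.finrank F E : ℕ) : ℝ) := by
          exact_mod_cast Finset.sum_le_sum h2
      _ = (Module.finrank F E : ℝ) * Bad.card := by
          rw [Finset.sum_const, smul_eq_mul]
          push_cast
          ring

end Fermat.Agent.GJ.Frob
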