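/-
GATE-J brick FROB (helper77), file 5: for a Galois extension `L/F` of number fields, a subgroup `M`
of the Galois group with `fixedField M` Galois over `F`, and a prime `P` of `L` unramified over
`F` with Frobenius element `σ`:  `σ ∈ M` iff the prime of `F` below `P` splits in `fixedField M`.
-/
import Fermat.Agent.S14.CR.FixedFrob
import Fermat.Agent.S14.CR.FrobTower
import Fermat.Agent.S14.Artin
import Fermat.Agent.GJ.Frob.Compare

set_option autoImplicit false

open NumberField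

namespace Fermat.Agent.GJ.Frob

open Fermat.Agent.S14 Fermat.Agent.S14.CR Fermat.Agent.S14.NonSplit

variable {F L : Type*} [Field F] [NumberField F] [Field L] [NumberField L] [Algebra F L]

/-- Ramification index one is inherited by the prime of an intermediate field. -/
theorem ramificationIdx_under_eq_one (E : IntermediateField F L) (P : Ideal (𝓞 L)) [P.IsPrime]
    (he : P.ramificationIdx (𝓞 F) = 1) : (P.under (𝓞 E)).ramificationIdx (𝓞 F) = 1 := by
  haveI : P.LiesOver (P.under (𝓞 E)) := ⟨rfl⟩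
  have h := Ideal.ramificationIdx_tower (R := 𝓞 F) (P.under (𝓞 E)) P
  rw [he] at h
  exact Nat.eq_one_of_mul_eq_one_right h.symm

variable [IsGalois F L]

/-- Ramification index one ⟹ trivial inertia group (general Galois case). -/
theorem inertia_eq_bot_of_e_eq_one (P : Ideal (𝓞 L)) [P.IsPrime] (hP : P ≠ ⊥)
    (he : P.ramificationIdx (𝓞 F) = 1) : P.inertia (L ≃ₐ[F] L) = ⊥ := by
  have h𝔭 : (P.under (𝓞 F)) ≠ ⊥ := fun h0 => hP (Ideal.eq_bot_of_comap_eq_bot h0)
  rw [← Ideal.ramificationIdxIn_eq_ramificationIdx (P.under (𝓞 F)) P (L ≃ₐ[F] L),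
    ← Ideal.card_inertia_eq_ramificationIdxIn (G := L ≃ₐ[F] L) (P.under (𝓞 F)) P] at he
  exact (Subgroup.card_eq_one).mp he

/-- (⇒) -/
theorem inertiaDeg_under_eq_one_of_mem (M : Subgroup (L ≃ₐ[F] L))
    (P : Ideal (𝓞 L)) [P.IsPrime] (hP : P ≠ ⊥) {σ : L ≃ₐ[F] L}
    (hσ : IsArithFrobAt (𝓞 F) σ P) (hM : σ ∈ M) :
    (P.under (𝓞 (IntermediateField.fixedField M))).inertiaDeg (𝓞 F) = 1 := by
  refine inertiaDeg_under_eq_one_of_fixes (K := F) (F := IntermediateField.fixedField M) (M := L)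
    σ P hP hσ ?_
  intro x
  exact x.2 ⟨σ, hM⟩

/-- (⇐) -/
theorem mem_of_inertiaDeg_under_eq_one (M : Subgroup (L ≃ₐ[F] L))
    [IsGalois F (IntermediateField.fixedField M)]
    (P : Ideal (𝓞 L)) [P.IsPrime] (hP : P ≠ ⊥) (he : P.ramificationIdx (𝓞 F) = 1)
    {σ : L ≃ₐ[F] L} (hσ : IsArithFrobAt (𝓞 F) σ P)
    (hf : (P.under (𝓞 (IntermediateField.fixedField M))).inertiaDeg (𝓞 F) = 1) : σ ∈ M := by
  set E := IntermediateField.fixedField M with hE
  have hQ0 : P.under (𝓞 E) ≠ ⊥ := under_ne_bot_of_ne_bot P hP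
  have hQe := ramificationIdx_under_eq_one E P he
  have hI := inertia_eq_bot_of_e_eq_one (F := F) (L := E) (P.under (𝓞 E)) hQ0 hQe
  have hres : IsArithFrobAt (𝓞 F) (σ.restrictNormal E) (P.under (𝓞 E)) :=
    isArithFrobAt_restrictNormal (Ω := E) hσ
  have hord := orderOf_eq_inertiaDeg hQ0 hI hres
  rw [hf, orderOf_eq_one_iff] at hord
  rw [← IntermediateField.fixingSubgroup_fixedField M, ← hE, IntermediateField.mem_fixingSubgroup_iff]
  intro x hx
  have h1 := AlgEquiv.restrictNormal_commutes σ E ⟨x, hx⟩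
  rw [hord] at h1
  exact h1.symm

/-- The equivalence with `SplitsIn`. -/
theorem splitsIn_fixedField_iff (M : Subgroup (L ≃ₐ[F] L))
    [IsGalois F (IntermediateField.fixedField M)]
    (P : Ideal (𝓞 L)) [P.IsPrime] (hP : P ≠ ⊥) (he : P.ramificationIdx (𝓞 F) = 1)
    {σ : L ≃ₐ[F] L} (hσ : IsArithFrobAt (𝓞 F) σ P) :
    SplitsIn F (IntermediateField.fixedField M) (P.under (𝓞 F)) ↔ σ ∈ M := by
  set E := IntermediateField.fixedField M with hE
  have hQe := ramificationIdx_under_eq_one E P he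
  have huu : (P.under (𝓞 E)).under (𝓞 F) = P.under (𝓞 F) := under_under_eq P
  constructor
  · rintro ⟨Q, hQ, hQu, hQe', hQf⟩
    refine mem_of_inertiaDeg_under_eq_one M P hP he hσ ?_
    haveI : (P.under (𝓞 F)).IsPrime := inferInstance
    exact ((split_all Q hQu hQe' hQf).1 (P.under (𝓞 E)) inferInstance huu).2.1
  · intro hM
    exact ⟨P.under (𝓞 E), inferInstance, huu, hQe, inertiaDeg_under_eq_one_of_mem M P hP hσ hM⟩

end Fermat.Agent.GJ.Frob
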