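/-
GATE-J brick FROB (helper77), file 1: in an extension of number fields only finitely many primes
ramify (via the different ideal).
-/
import Mathlib

set_option autoImplicit false

open NumberField

namespace Fermat.Agent.GJ.Frob

variable (K L : Type*) [Field K] [NumberField K] [Field L] [NumberField L] [Algebra K L]

/-- The primes of `L` which are ramified over `K`. -/
theorem finite_ramified_above :
    {P : Ideal (𝓞 L) | P.IsPrime ∧ P ≠ ⊥ ∧ P.ramificationIdx (𝓞 K) ≠ 1}.Finite := by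
  classical
  have hD : differentIdeal (𝓞 K) (𝓞 L) ≠ ⊥ := differentIdeal_ne_bot
  refine Set.Finite.subset
    (UniqueFactorizationMonoid.normalizedFactors (differentIdeal (𝓞 K) (𝓞 L))).toFinset.finite_toSet
    ?_
  rintro P ⟨hP, hP0, he⟩
  simp only [Finset.mem_coe, Multiset.mem_toFinset]
  rw [Ideal.mem_normalizedFactors_iff hD]
  refine ⟨hP, Ideal.dvd_iff_le.mp ?_⟩
  rw [dvd_differentIdeal_iff]
  intro hunr
  exact he Ideal.ramificationIdx_eq_one_of_isUnramifiedAt

/-- The primes of `K` which ramify in `L`. -/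
theorem finite_ramified :
    {𝔭 : Ideal (𝓞 K) | ∃ P : Ideal (𝓞 L), P.IsPrime ∧ P ≠ ⊥ ∧ P.under (𝓞 K) = 𝔭 ∧
      P.ramificationIdx (𝓞 K) ≠ 1}.Finite := by
  refine Set.Finite.subset ((finite_ramified_above K L).image (fun P => P.under (𝓞 K))) ?_
  rintro 𝔭 ⟨P, hP, hP0, rfl, he⟩
  exact ⟨P, ⟨hP, hP0, he⟩, rfl⟩

end Fermat.Agent.GJ.Frob
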