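/-
GATE-J brick FROB (helper77), file 6: in a cyclic extension `L/F` of number fields there is a
degree one prime of `F`, outside any given finite set, unramified and with Frobenius element a
generator of the Galois group (i.e. the prime stays inert).
-/
import Fermat.Agent.GJ.Frob.Ram
import Fermat.Agent.GJ.Frob.Analytic
import Fermat.Agent.GJ.Frob.Comb
import Fermat.Agent.GJ.Frob.Key

set_option autoImplicit false

open NumberField

namespace Fermat.Agent.GJ.Frob

open Fermat.Agent.S14 Fermat.Agent.S14.CR Fermat.Agent.S14.NonSplit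

/-- A real number estimate. -/
lemma bound_aux {d m n : ℕ} (hdm : d * m = n) (hd : 0 < d) (hm : 0 < m) {S p ℓ C₀ b : ℝ}
    (hC : 0 ≤ C₀) (hb : 0 ≤ b) (h1 : (d : ℝ) * S ≤ p) (h2 : p ≤ ℓ + C₀) (h3 : ℓ - C₀ ≤ p)
    (h4 : p ≤ (d : ℝ) * S + (d : ℝ) * b) : |S - (m : ℝ) / (n : ℝ) * ℓ| ≤ C₀ + b := by
  have hd' : (0 : ℝ) < d := by exact_mod_cast hd
  have hm' : (0 : ℝ) < m := by exact_mod_cast hm
  have hd1 : (1 : ℝ) ≤ d := by exact_mod_cast hd
  have hmn : (m : ℝ) / (n : ℝ) = 1 / d := by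
    rw [← hdm]
    push_cast
    field_simp
  rw [hmn, abs_le]
  have hkey : (d : ℝ) * (S - 1 / d * ℓ) = d * S - ℓ := by
    field_simp
  constructor
  · have : -(C₀ + b) * d ≤ (S - 1 / d * ℓ) * d := by
      rw [mul_comm (S - 1 / d * ℓ), hkey]
      nlinarith
    exact le_of_mul_le_mul_right this hd'
  · have : (S - 1 / d * ℓ) * d ≤ (C₀ + b) * d := by
      rw [mul_comm (S - 1 / d * ℓ), hkey]
      nlinarith
    exact le_of_mul_le_mul_right this hd'

section

variable (F L : Type*) [Field F] [NumberField F] [Field L] [NumberField L] [Algebra F L]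

/-- The bad set: `B` together with the primes of `F` ramified in `L`. -/
noncomputable def badSet (B : Finset (Ideal (𝓞 F))) : Finset (Ideal (𝓞 F)) :=
  open Classical in B ∪ (finite_ramified F L).toFinset

variable {F L} in
lemma ramificationIdx_eq_one_of_notMem_badSet {B : Finset (Ideal (𝓞 F))} {P : Ideal (𝓞 L)}
    (hP : P.IsPrime) (hP0 : P ≠ ⊥) (h : P.under (𝓞 F) ∉ badSet F L B) :
    P.ramificationIdx (𝓞 F) = 1 := by
  classical
  by_contra he
  apply h
  unfold badSet
  rw [Finset.mem_union]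
  right
  rw [Set.Finite.mem_toFinset]
  exact ⟨P, hP, hP0, rfl, he⟩

variable {F L} in
lemma notMem_of_notMem_badSet {B : Finset (Ideal (𝓞 F))} {𝔭 : Ideal (𝓞 F)}
    (h : 𝔭 ∉ badSet F L B) : 𝔭 ∉ B := by
  classical
  intro hB
  apply h
  unfold badSet
  exact Finset.mem_union_left _ hB

variable {F L} in
/-- Primes of an intermediate field are unramified over `F` outside the bad set. -/
lemma ramificationIdx_eq_one_of_notMem_badSet' {B : Finset (Ideal (𝓞 F))}
    (E : IntermediateField F L) {Q : Ideal (𝓞 E)}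
    (hQ : Q.IsPrime) (hQ0 : Q ≠ ⊥) (h : Q.under (𝓞 F) ∉ badSet F L B) :
    Q.ramificationIdx (𝓞 F) = 1 := by
  obtain ⟨P, hP, hP0, hPQ⟩ := exists_prime_over E L hQ0
  have hu : P.under (𝓞 F) = Q.under (𝓞 F) := by
    rw [← hPQ]
    exact (under_under_eq (K := F) (F := E) P).symm
  have he := ramificationIdx_eq_one_of_notMem_badSet hP hP0 (hu ▸ h)
  have := ramificationIdx_under_eq_one E P he
  rwa [hPQ] at this

end

section Cyclic

variable (F L : Type*) [Field F] [NumberField F] [Field L] [NumberField L] [Algebra F L]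
  [IsGalois F L] [IsCyclic (L ≃ₐ[F] L)]

open scoped IsMulCommutative in
/-- **Frobenius' theorem for cyclic extensions**: there is a degree one prime, outside `B`,
unramified, whose Frobenius element generates the Galois group. -/
theorem exists_frob_generator (B : Finset (Ideal (𝓞 F))) :
    ∃ (P : Ideal (𝓞 L)) (τ : L ≃ₐ[F] L), P.IsPrime ∧ P ≠ ⊥ ∧ P.under (𝓞 F) ∉ B ∧
      (Ideal.absNorm (P.under (𝓞 F))).Prime ∧ P.ramificationIdx (𝓞 F) = 1 ∧
      IsArithFrobAt (𝓞 F) τ P ∧ Subgroup.zpowers τ = ⊤ := by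
  classical
  haveI : IsAbelianGalois F L := { }
  letI : Fintype (Subgroup (L ≃ₐ[F] L)) := Fintype.ofFinite _
  set Bad := badSet F L B with hBad
  set n := Nat.card (L ≃ₐ[F] L) with hn
  have hnpos : 0 < n := Nat.card_pos
  -- every subgroup is normal, so every fixed field is Galois
  have hgal : ∀ M : Subgroup (L ≃ₐ[F] L), IsGalois F (IntermediateField.fixedField M) :=
    fun M => inferInstance
  -- degrees
  have hdeg : ∀ M : Subgroup (L ≃ₐ[F] L),
      Module.finrank F (IntermediateField.fixedField M) * Nat.card M = n := by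
    intro M
    rw [← IntermediateField.finrank_fixedField_eq_card M, Module.finrank_mul_finrank, hn,
      IsGalois.card_aut_eq_finrank]
  -- the analytic bounds, uniformly in `M`
  choose Cf δf hδf hbf using fun M : Subgroup (L ≃ₐ[F] L) =>
    exists_primeSum_bounds (IntermediateField.fixedField M)
  set δ₀ := Finset.univ.inf' Finset.univ_nonempty δf with hδ₀
  have hδ₀pos : 0 < δ₀ := (Finset.lt_inf'_iff _).mpr fun M _ => hδf M
  have hδ₀le : ∀ M, δ₀ ≤ δf M := fun M => Finset.inf'_le _ (Finset.mem_univ M)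
  set C₀ := ∑ M, |Cf M| with hC₀
  have hC₀nn : 0 ≤ C₀ := Finset.sum_nonneg fun _ _ => abs_nonneg _
  have hC₀le : ∀ M, Cf M ≤ C₀ := fun M => (le_abs_self _).trans
    (Finset.single_le_sum (f := fun M => |Cf M|) (fun _ _ => abs_nonneg _) (Finset.mem_univ M))
  -- the combinatorial inversion
  obtain ⟨D, hD⟩ := exists_sumGen_bound (frobAt F L) (C₀ + (Bad.card : ℝ))
  have hgen : 0 < genCount (⊤ : Subgroup (L ≃ₐ[F] L)) := genCount_top_pos
  -- the choice of `s`
  set T := D * (n : ℝ) / genCount (⊤ : Subgroup (L ≃ₐ[F] L)) with hT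
  set t := min (δ₀ / 2) (Real.exp (-(T + 1))) with ht
  have htpos : 0 < t := lt_min (by positivity) (Real.exp_pos _)
  set s := 1 + t with hs
  have hs1 : 1 < s := by linarith
  have hs2 : ∀ M, s < 1 + δf M := by
    intro M
    have h1 : t ≤ δ₀ / 2 := min_le_left _ _
    have h2 := hδ₀le M
    linarith
  have hst : s - 1 = t := by rw [hs]; ring
  set ℓ := Real.log (1 / (s - 1)) with hℓ
  have hℓT : T + 1 ≤ ℓ := by
    rw [hℓ, hst, one_div, Real.log_inv]
    have h1 : t ≤ Real.exp (-(T + 1)) := min_le_right _ _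
    have h2 := Real.log_le_log htpos h1
    rw [Real.log_exp] at h2
    linarith
  -- the choice of `X`
  choose X₀ hX₀ using fun M => (hbf M s hs1 (hs2 M)).2
  set X := Finset.univ.sup X₀ with hX
  have hXle : ∀ M, X₀ M ≤ X := fun M => Finset.le_sup (Finset.mem_univ M)
  -- the data for the inversion
  set U := (degOnePrimes F X).filter (fun 𝔭 => 𝔭 ∉ Bad) with hU
  set w : Ideal (𝓞 F) → ℝ := fun 𝔭 => (Ideal.absNorm 𝔭 : ℝ) ^ (-s) with hw
  -- Frobenius elements at the primes of `U`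
  have hfrob : ∀ 𝔭 ∈ U, ∃ P : Ideal (𝓞 L), P.IsPrime ∧ P ≠ ⊥ ∧ P.under (𝓞 F) = 𝔭 ∧
      P.ramificationIdx (𝓞 F) = 1 ∧ IsArithFrobAt (𝓞 F) (frobAt F L 𝔭) P := by
    intro 𝔭 h𝔭
    rw [hU, Finset.mem_filter] at h𝔭
    haveI := (mem_degOnePrimes.mp h𝔭.1).1
    obtain ⟨P, hP, hP0, hPu⟩ := exists_prime_over F L (ne_bot_of_mem_degOnePrimes h𝔭.1)
    haveI := hP
    refine ⟨P, hP, hP0, hPu, ?_, isArithFrobAt_frobAt' F L P hP0 hPu⟩
    exact ramificationIdx_eq_one_of_notMem_badSet hP hP0 (hPu ▸ h𝔭.2)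
  -- `sumIn` is `splitSum`
  have hsum : ∀ M : Subgroup (L ≃ₐ[F] L),
      sumIn (frobAt F L) U w M = splitSum F (IntermediateField.fixedField M) Bad X s := by
    intro M
    haveI := hgal M
    unfold sumIn splitSum
    refine Finset.sum_congr ?_ fun _ _ => rfl
    ext 𝔭
    rw [Finset.mem_filter, mem_splitPrimes]
    constructor
    · rintro ⟨h𝔭, hM⟩
      obtain ⟨P, hP, hP0, hPu, he, hσ⟩ := hfrob 𝔭 h𝔭
      haveI := hP
      rw [hU, Finset.mem_filter] at h𝔭
      refine ⟨h𝔭.1, h𝔭.2, ?_⟩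
      rw [← hPu]
      exact (splitsIn_fixedField_iff M P hP0 he (hPu ▸ hσ)).mpr hM
    · rintro ⟨h1, h2, h3⟩
      have h𝔭 : 𝔭 ∈ U := by
        rw [hU, Finset.mem_filter]
        exact ⟨h1, h2⟩
      obtain ⟨P, hP, hP0, hPu, he, hσ⟩ := hfrob 𝔭 h𝔭
      haveI := hP
      refine ⟨h𝔭, ?_⟩
      rw [← hPu] at h3
      have := (splitsIn_fixedField_iff M P hP0 he (hPu ▸ hσ)).mp h3
      rwa [hPu] at this
  -- the hypothesis of the inversion
  have hyp : ∀ M : Subgroup (L ≃ₐ[F] L),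
      |sumIn (frobAt F L) U w M - (Nat.card M : ℝ) / (Nat.card (L ≃ₐ[F] L) : ℝ) * ℓ| ≤
        C₀ + (Bad.card : ℝ) := by
    intro M
    haveI := hgal M
    rw [hsum M]
    obtain ⟨hup, -⟩ := hbf M s hs1 (hs2 M)
    have hlo := hX₀ M X (hXle M)
    have h1 := finrank_mul_splitSum_le F (IntermediateField.fixedField M) Bad X s
    have h4 := primeSum_le_finrank_mul_splitSum_add F (IntermediateField.fixedField M) Bad
      (fun Q hQ hQ0 hQB => ramificationIdx_eq_one_of_notMem_badSet' _ hQ hQ0 hQB) X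
      (s := s) (by linarith)
    have hCM := hC₀le M
    refine bound_aux (hdeg M) Module.finrank_pos Nat.card_pos hC₀nn (Nat.cast_nonneg _) h1
      ((hup X).trans (by linarith)) (le_trans (by linarith) hlo) h4
  -- conclusion
  have hconcl := hD U w ℓ hyp ⊤
  have hpos : 0 < sumGen (frobAt F L) U w ⊤ := by
    have h1 := (abs_le.mp hconcl).1
    have h2 : D < genCount (⊤ : Subgroup (L ≃ₐ[F] L)) / (n : ℝ) * ℓ := by
      have hn' : (0 : ℝ) < n := by exact_mod_cast hnpos
      have h3 : T < ℓ := by linarith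
      rw [hT, div_lt_iff₀ hgen] at h3
      rw [div_mul_eq_mul_div, lt_div_iff₀ hn']
      linarith
    rw [hn] at h2
    linarith
  have hne : (U.filter (fun u => Subgroup.zpowers (frobAt F L u) = ⊤)).Nonempty := by
    by_contra hemp
    rw [Finset.not_nonempty_iff_eq_empty] at hemp
    unfold sumGen at hpos
    rw [hemp, Finset.sum_empty] at hpos
    exact lt_irrefl _ hpos
  obtain ⟨𝔭, h𝔭⟩ := hne
  rw [Finset.mem_filter] at h𝔭
  obtain ⟨P, hP, hP0, hPu, he, hσ⟩ := hfrob 𝔭 h𝔭.1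
  have h𝔭U := h𝔭.1
  rw [hU, Finset.mem_filter] at h𝔭U
  refine ⟨P, frobAt F L 𝔭, hP, hP0, ?_, ?_, he, hσ, h𝔭.2⟩
  · rw [hPu]
    exact notMem_of_notMem_badSet h𝔭U.2
  · rw [hPu]
    exact (mem_degOnePrimes.mp h𝔭U.1).2.1

end Cyclic

end Fermat.Agent.GJ.Frob
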