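/-
GATE-J brick FROB (helper77), file 7: **Frobenius' theorem**.  For a Galois extension `L/K` of
number fields and `g ∈ Gal(L/K)` there is a prime `P` of `L`, of degree one and unramified over
`K`, lying outside any given finite set of primes of `K`, whose Frobenius element `σ` generates the
same cyclic subgroup as `g`.  In particular `g` is a power of a Frobenius element.
-/
import Fermat.Agent.GJ.Frob.Cyclic

set_option autoImplicit false

open NumberField

namespace Fermat.Agent.GJ.Frob

open Fermat.Agent.S14 Fermat.Agent.S14.CR Fermat.Agent.S14.NonSplit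

variable (K L : Type*) [Field K] [NumberField K] [Field L] [NumberField L] [Algebra K L]
  [IsGalois K L]

/-- **Frobenius' theorem**. -/
theorem exists_frob_zpowers_eq (g : L ≃ₐ[K] L) (B : Finset (Ideal (𝓞 K))) :
    ∃ (P : Ideal (𝓞 L)) (σ : L ≃ₐ[K] L), P.IsPrime ∧ P ≠ ⊥ ∧ P.under (𝓞 K) ∉ B ∧
      (Ideal.absNorm (P.under (𝓞 K))).Prime ∧ P.ramificationIdx (𝓞 K) = 1 ∧
      P.inertia (L ≃ₐ[K] L) = ⊥ ∧ IsArithFrobAt (𝓞 K) σ P ∧
      Subgroup.zpowers σ = Subgroup.zpowers g := by
  classical
  set F : IntermediateField K L := IntermediateField.fixedField (Subgroup.zpowers g) with hF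
  have hfix : F.fixingSubgroup = Subgroup.zpowers g :=
    IntermediateField.fixingSubgroup_fixedField _
  haveI : IsCyclic ↥(F.fixingSubgroup) := by
    rw [hfix]
    infer_instance
  haveI : IsCyclic (L ≃ₐ[F] L) :=
    isCyclic_of_surjective (IntermediateField.fixingSubgroupEquiv F)
      (IntermediateField.fixingSubgroupEquiv F).surjective
  -- the bad set
  set T : Finset (Ideal (𝓞 K)) := badSet K L B with hT
  set BF : Finset (Ideal (𝓞 F)) := (finite_primes_above (L := F) T).toFinset with hBF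
  obtain ⟨P, τ, hP, hP0, hPB, hPN, -, hτ, hgen⟩ := exists_frob_generator F L BF
  haveI := hP
  have huu : (P.under (𝓞 F)).under (𝓞 K) = P.under (𝓞 K) := under_under_eq P
  -- the prime below is good
  have hgood : P.under (𝓞 K) ∉ T := by
    intro hmem
    apply hPB
    rw [hBF, Set.Finite.mem_toFinset]
    exact ⟨inferInstance, huu.symm ▸ hmem⟩
  have he : P.ramificationIdx (𝓞 K) = 1 := ramificationIdx_eq_one_of_notMem_badSet hP hP0 hgood
  -- norms
  have hdeg : P.under (𝓞 F) ∈ degOnePrimes F (Ideal.absNorm (P.under (𝓞 F))) :=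
    mem_degOnePrimes.mpr ⟨inferInstance, hPN, le_rfl⟩
  obtain ⟨-, hNeq, hdegK⟩ := under_degOne K F hdeg
  rw [huu] at hNeq hdegK
  -- the Frobenius element over `K`
  set σ : L ≃ₐ[K] L := ((IntermediateField.fixingSubgroupEquiv F).symm τ : L ≃ₐ[K] L) with hσ
  have hσP : IsArithFrobAt (𝓞 K) σ P := by
    intro x
    have h1 := hτ x
    have hN : Nat.card (𝓞 K ⧸ P.under (𝓞 K)) = Nat.card (𝓞 F ⧸ P.under (𝓞 F)) := by
      have := hNeq
      rwa [Ideal.absNorm_apply, Submodule.cardQuot_apply, Ideal.absNorm_apply,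
        Submodule.cardQuot_apply] at this
    rw [hN]
    have h2 : (MulSemiringAction.toAlgHom (𝓞 K) (𝓞 L) σ) x =
        (MulSemiringAction.toAlgHom (𝓞 F) (𝓞 L) τ) x := by
      apply Subtype.ext
      rfl
    rw [h2]
    exact h1
  -- the generated subgroups
  have hzp : Subgroup.zpowers σ = Subgroup.zpowers g := by
    have h1 : Subgroup.zpowers ((IntermediateField.fixingSubgroupEquiv F).symm τ) = ⊤ := by
      have h0 := MonoidHom.map_zpowers
        ((IntermediateField.fixingSubgroupEquiv F).symm.toMonoidHom) τ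
      rw [hgen, Subgroup.map_top_of_surjective _
        (IntermediateField.fixingSubgroupEquiv F).symm.surjective] at h0
      exact h0.symm
    have h2 := MonoidHom.map_zpowers (F.fixingSubgroup.subtype)
      ((IntermediateField.fixingSubgroupEquiv F).symm τ)
    rw [h1, ← MonoidHom.range_eq_map, Subgroup.range_subtype] at h2
    rw [hσ, ← hfix]
    exact h2.symm
  refine ⟨P, σ, hP, hP0, notMem_of_notMem_badSet hgood, (mem_degOnePrimes.mp hdegK).2.1, he,
    inertia_eq_bot_of_e_eq_one P hP0 he, hσP, hzp⟩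

/-- Every element of the Galois group is a power of a Frobenius element at an unramified degree one
prime outside any given finite set. -/
theorem exists_frob_pow_eq (g : L ≃ₐ[K] L) (B : Finset (Ideal (𝓞 K))) :
    ∃ (P : Ideal (𝓞 L)) (σ : L ≃ₐ[K] L) (j : ℕ), P.IsPrime ∧ P ≠ ⊥ ∧ P.under (𝓞 K) ∉ B ∧
      (Ideal.absNorm (P.under (𝓞 K))).Prime ∧ P.ramificationIdx (𝓞 K) = 1 ∧
      P.inertia (L ≃ₐ[K] L) = ⊥ ∧ IsArithFrobAt (𝓞 K) σ P ∧ g = σ ^ j := by
  obtain ⟨P, σ, h1, h2, h3, h4, h5, h6, h7, h8⟩ := exists_frob_zpowers_eq K L g B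
  have hg : g ∈ Subgroup.zpowers σ := by
    rw [h8]
    exact Subgroup.mem_zpowers g
  rw [← mem_powers_iff_mem_zpowers] at hg
  obtain ⟨j, hj⟩ := hg
  exact ⟨P, σ, j, h1, h2, h3, h4, h5, h6, h7, hj.symm⟩

end Fermat.Agent.GJ.Frob
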