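/-
GATE-J / J4-FROB leaf (CMP) (helper26): comparison of prime sums in a Galois extension `E/F` of
number fields:  `[E:F] * ∑_{𝔭 ∈ degOnePrimes F X, 𝔭 splits completely in E} N𝔭^(-s)` and
`primeSum E X s` differ by at most the number of primes of `E` ramified over `F`.
On top of T14's `S14/NonSplit/Compare.lean` (helper21/helper15).
-/
import Fermat.Agent.S14.NonSplit.Compare

set_option autoImplicit false

open NumberField

namespace Fermat.Agent.GJ.FrobLeaf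

open Fermat.Agent.S14.NonSplit

section Ramified

variable (F E : Type*) [Field F] [NumberField F] [Field E] [NumberField E] [Algebra F E]

/-- the prime divisors of a nonzero ideal of `𝓞 E` form a finite set -/
theorem finite_prime_dvd (I : Ideal (𝓞 E)) (hI : I ≠ ⊥) :
    {P : Ideal (𝓞 E) | P.IsPrime ∧ P ∣ I}.Finite := by
  classical
  have := Ideal.finite_factors hI
  refine (this.image (fun v => v.asIdeal)).subset ?_
  rintro P ⟨hP, hdvd⟩
  by_cases hP0 : P = ⊥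
  · subst hP0
    rw [← Ideal.zero_eq_bot, zero_dvd_iff] at hdvd
    exact absurd hdvd hI
  · exact ⟨⟨P, hP, hP0⟩, hdvd, rfl⟩

/-- only finitely many primes of `E` are ramified over `F` -/
theorem finite_ramified :
    {P : Ideal (𝓞 E) | P.IsPrime ∧ P.ramificationIdx (𝓞 F) ≠ 1}.Finite := by
  refine (finite_prime_dvd E (differentIdeal (𝓞 F) (𝓞 E)) differentIdeal_ne_bot).subset ?_
  rintro P ⟨hP, he⟩
  refine ⟨hP, ?_⟩
  rw [dvd_differentIdeal_iff]
  intro hU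
  exact he (Ideal.ramificationIdx_eq_one P (𝓞 F))

/-- the number of primes of `E` ramified over `F` -/
noncomputable def numRamified : ℕ := (finite_ramified F E).toFinset.card

end Ramified

section Compare

variable (F E : Type*) [Field F] [NumberField F] [Field E] [NumberField E] [Algebra F E]
  [IsGalois F E]

/-- `𝔭` has a prime of `E` above it with `e = f = 1` (NonSplit's shape of "splits completely") -/
def SplitIn (𝔭 : Ideal (𝓞 F)) : Prop :=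
  ∃ P : Ideal (𝓞 E), P.IsPrime ∧ P.under (𝓞 F) = 𝔭 ∧ P.ramificationIdx (𝓞 F) = 1 ∧
    P.inertiaDeg (𝓞 F) = 1

/-- **(CMP)** comparison of the prime sums of `F` (over split primes) and of `E`. -/
theorem abs_finrank_mul_sum_sub_primeSum_le (X : ℕ) (s : ℝ) (hs : 0 ≤ s)
    (T : Finset (Ideal (𝓞 F)))
    (hT : ∀ 𝔭, 𝔭 ∈ T ↔ 𝔭 ∈ degOnePrimes F X ∧ SplitIn F E 𝔭) :
    |(Module.finrank F E : ℝ) * ∑ 𝔭 ∈ T, (Ideal.absNorm 𝔭 : ℝ) ^ (-s) - primeSum E X s| ≤
      numRamified F E := by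
  classical
  have hT1 : ∀ 𝔭 ∈ T, 𝔭.IsPrime ∧ 𝔭 ≠ ⊥ ∧ ∃ P : Ideal (𝓞 E), P.IsPrime ∧ P.under (𝓞 F) = 𝔭 ∧
      P.ramificationIdx (𝓞 F) = 1 ∧ P.inertiaDeg (𝓞 F) = 1 := by
    intro 𝔭 h𝔭
    obtain ⟨h1, h2⟩ := (hT 𝔭).mp h𝔭
    exact ⟨(mem_degOnePrimes.mp h1).1, ne_bot_of_mem_degOnePrimes h1, h2⟩
  obtain ⟨T', hT', hT'2, hsum⟩ := exists_finset_above (L := E) T hT1
  have hsub : T' ⊆ degOnePrimes E X := by
    intro P hP
    obtain ⟨hPp, -, hPT, hN⟩ := hT'2 P hP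
    obtain ⟨h1, -⟩ := (hT _).mp hPT
    obtain ⟨-, h2, h3⟩ := mem_degOnePrimes.mp h1
    exact mem_degOnePrimes.mpr ⟨hPp, hN ▸ h2, hN ▸ h3⟩
  have hdiff : degOnePrimes E X \ T' ⊆ (finite_ramified F E).toFinset := by
    intro P hP
    rw [Finset.mem_sdiff] at hP
    obtain ⟨hP1, hP2⟩ := hP
    obtain ⟨hPp, hNp, hNX⟩ := mem_degOnePrimes.mp hP1
    rw [Set.Finite.mem_toFinset]
    refine ⟨hPp, fun he => hP2 ?_⟩
    -- `P` is unramified of prime norm: its restriction is a split degree one prime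
    have hP0 : P ≠ ⊥ := ne_bot_of_mem_degOnePrimes hP1
    set 𝔭 := P.under (𝓞 F) with h𝔭
    have h𝔭p : 𝔭.IsPrime := Ideal.IsPrime.under (𝓞 F) P
    have : P.LiesOver 𝔭 := ⟨h𝔭⟩
    have hpow := Ideal.absNorm_pow_inertiaDeg 𝔭 P
    -- `absNorm 𝔭 ^ f = absNorm P` prime, so `f = 1`
    obtain ⟨hN, hf⟩ := (hNp.pow_eq_iff).mp hpow
    have h𝔭mem : 𝔭 ∈ T := by
      rw [hT]
      refine ⟨mem_degOnePrimes.mpr ⟨h𝔭p, hN ▸ hNp, hN ▸ hNX⟩, P, hPp, rfl, he, hf⟩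
    exact (hT' P).mpr ⟨hPp, h𝔭mem⟩
  -- split the sum
  have hsplit := Finset.sum_sdiff (f := fun P : Ideal (𝓞 E) => (Ideal.absNorm P : ℝ) ^ (-s)) hsub
  have hT'sum := hsum (fun n : ℕ => (n : ℝ) ^ (-s))
  have hterm0 : ∀ P : Ideal (𝓞 E), 0 ≤ (Ideal.absNorm P : ℝ) ^ (-s) := fun P =>
    Real.rpow_nonneg (Nat.cast_nonneg _) _
  have hterm1 : ∀ P ∈ degOnePrimes E X \ T', (Ideal.absNorm P : ℝ) ^ (-s) ≤ 1 := by
    intro P hP
    obtain ⟨hP1, -⟩ := Finset.mem_sdiff.mp hP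
    have hNp := (mem_degOnePrimes.mp hP1).2.1
    have h1 : (1 : ℝ) ≤ Ideal.absNorm P := by exact_mod_cast hNp.one_lt.le
    exact Real.rpow_le_one_of_one_le_of_nonpos h1 (by linarith)
  have hrest0 : 0 ≤ ∑ P ∈ degOnePrimes E X \ T', (Ideal.absNorm P : ℝ) ^ (-s) :=
    Finset.sum_nonneg fun P _ => hterm0 P
  have hrest1 : ∑ P ∈ degOnePrimes E X \ T', (Ideal.absNorm P : ℝ) ^ (-s) ≤ numRamified F E := by
    calc ∑ P ∈ degOnePrimes E X \ T', (Ideal.absNorm P : ℝ) ^ (-s)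
        ≤ ∑ _P ∈ degOnePrimes E X \ T', (1 : ℝ) := Finset.sum_le_sum hterm1
      _ = ((degOnePrimes E X \ T').card : ℝ) := by simp
      _ ≤ numRamified F E := by
          unfold numRamified
          exact_mod_cast Finset.card_le_card hdiff
  have hE : primeSum E X s = ∑ P ∈ degOnePrimes E X \ T', (Ideal.absNorm P : ℝ) ^ (-s) +
      (Module.finrank F E : ℝ) * ∑ 𝔭 ∈ T, (Ideal.absNorm 𝔭 : ℝ) ^ (-s) := by
    rw [← hT'sum, hsplit, primeSum]
  rw [hE, abs_le]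
  constructor <;> linarith

end Compare

end Fermat.Agent.GJ.FrobLeaf
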