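/-
GATE-J / J4-FROB leaf (L1) (helper26): two-sided bound for the degree-one prime sums of a number
field near `s = 1⁺`:  `primeSum F X s = log (1/(s-1)) + O_F(1)`, uniformly in `X ≥ X₀(s)` from
below and in all `X` from above.  On top of T14's `S14/NonSplit` (helper21).
-/
import Fermat.Agent.S14.NonSplit.Export

set_option autoImplicit false

open NumberField Filter Topology

namespace Fermat.Agent.GJ.FrobLeaf

open Fermat.Agent.S14.NonSplit

variable (F : Type*) [Field F] [NumberField F]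

/-- **(L1)** `primeSum F X s = log (1/(s-1)) + O(1)` for `s → 1⁺`. -/
theorem primeSum_two_sided :
    ∃ δ : ℝ, 0 < δ ∧ ∃ C : ℝ, ∀ s : ℝ, 1 < s → s < 1 + δ →
      (∀ X : ℕ, primeSum F X s ≤ Real.log (1 / (s - 1)) + C) ∧
        (∃ X₀ : ℕ, ∀ X : ℕ, X₀ ≤ X → Real.log (1 / (s - 1)) - C ≤ primeSum F X s) := by
  obtain ⟨δ, hδ, hb⟩ := exists_zetaR_bounds F
  set ρ := dedekindZeta_residue F with hρdef
  have hρ : 0 < ρ := dedekindZeta_residue_pos F
  refine ⟨δ, hδ, max (Real.log (2 * ρ) + zetaR F 2) (lowerConst F - Real.log (ρ / 4)), ?_⟩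
  intro s hs1 hs2
  obtain ⟨hlo, hhi⟩ := hb s hs1 hs2
  have hs0 : 0 < s - 1 := by linarith
  have hinv : 0 < 1 / (s - 1) := by positivity
  constructor
  · intro X
    have h1 := exp_primeSum_le F hs1 X
    have hz : zetaR F s ≤ 2 * ρ * (1 / (s - 1)) := by
      rw [mul_one_div, le_div_iff₀ hs0]
      linarith
    have h2 : Real.exp (primeSum F X s) ≤ 2 * ρ * (1 / (s - 1)) * Real.exp (zetaR F 2) :=
      h1.trans (mul_le_mul_of_nonneg_right hz (Real.exp_pos _).le)
    have h3 : primeSum F X s ≤ Real.log (2 * ρ * (1 / (s - 1)) * Real.exp (zetaR F 2)) := by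
      rw [← Real.log_exp (primeSum F X s)]
      exact Real.log_le_log (Real.exp_pos _) h2
    rw [Real.log_mul (by positivity) (Real.exp_pos _).ne', Real.log_mul (by positivity) hinv.ne',
      Real.log_exp] at h3
    have := le_max_left (Real.log (2 * ρ) + zetaR F 2) (lowerConst F - Real.log (ρ / 4))
    linarith
  · have hε : 0 < ρ / 4 * (1 / (s - 1)) := by positivity
    obtain ⟨X₀, hX₀⟩ := exists_zetaR_le_exp_primeSum_add F hs1 hε
    refine ⟨X₀, fun X hX => ?_⟩
    have hz : ρ / 2 * (1 / (s - 1)) ≤ zetaR F s := by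
      rw [mul_one_div, div_le_iff₀ hs0]
      linarith
    have h2 : ρ / 4 * (1 / (s - 1)) ≤ Real.exp (primeSum F X₀ s + lowerConst F) := by
      have : ρ / 2 * (1 / (s - 1)) = ρ / 4 * (1 / (s - 1)) + ρ / 4 * (1 / (s - 1)) := by ring
      linarith
    have h3 : Real.log (ρ / 4 * (1 / (s - 1))) ≤ primeSum F X₀ s + lowerConst F := by
      rw [← Real.log_exp (primeSum F X₀ s + lowerConst F)]
      exact Real.log_le_log hε h2
    rw [Real.log_mul (by positivity) hinv.ne'] at h3
    have h4 := primeSum_mono F hX s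
    have := le_max_right (Real.log (2 * ρ) + zetaR F 2) (lowerConst F - Real.log (ρ / 4))
    linarith

end Fermat.Agent.GJ.FrobLeaf
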