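/-
GATE-J / J4, brick FROB-ALG (helper19): the algebraic half of Frobenius' theorem
("every element of a Galois group generates the same cyclic group as some Frobenius element").

* `Cyclic`: elementary facts on the subgroup lattice of a cyclic group `zpowers g`.
* `Tower`: for `F ⊆ E ⊆ L`, `L/F` Galois, `P` a prime of `L` unramified over `F` with Frobenius
  element `σ`:  `σ ∈ Gal(L/E)  ↔  N(P ∩ E) = N(P ∩ F)  ↔  f(P ∩ E | F) = 1`.
* `Assembly`: a prime `P` of `L`, unramified over `K`, of degree one over `F = L^⟨g⟩`, such that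
  `P ∩ F` is not of degree one in `E_q = L^⟨g^q⟩` for every prime `q ∣ orderOf g`, has a Frobenius
  element `σ` over `K` with `zpowers σ = zpowers g`.
-/
import Mathlib
import Fermat.Agent.S14.CR.FrobTower
import Fermat.Agent.S14.NonSplit.Compare

set_option autoImplicit false

open NumberField

namespace Fermat.Agent.GJ.FrobAlg

section Cyclic

variable {G : Type*} [Group G]

/-- `g ^ z ∈ ⟨g ^ d⟩ ↔ d ∣ z` when `d ∣ orderOf g`. -/
theorem zpow_mem_zpowers_pow_iff {g : G} {d : ℕ} (hd : d ∣ orderOf g) (z : ℤ) :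
    g ^ z ∈ Subgroup.zpowers (g ^ d) ↔ (d : ℤ) ∣ z := by
  constructor
  · rintro ⟨m, hm⟩
    have hm' : g ^ ((d : ℤ) * m) = g ^ z := by
      rw [zpow_mul, zpow_natCast]; exact hm
    rw [zpow_eq_zpow_iff_modEq] at hm'
    have h1 : (d : ℤ) ∣ (orderOf g : ℤ) := Int.natCast_dvd_natCast.mpr hd
    have h2 := (Int.modEq_iff_dvd.mp hm')
    -- `orderOf g ∣ z - d * m`
    have h3 : (d : ℤ) ∣ z - (d : ℤ) * m := dvd_trans h1 h2
    have := dvd_add h3 (dvd_mul_right (d : ℤ) m)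
    simpa using this
  · rintro ⟨m, rfl⟩
    refine ⟨m, ?_⟩
    simp only
    rw [zpow_mul, zpow_natCast]

/-- Natural-number exponent version. -/
theorem pow_mem_zpowers_pow_iff {g : G} {d : ℕ} (hd : d ∣ orderOf g) (k : ℕ) :
    g ^ k ∈ Subgroup.zpowers (g ^ d) ↔ d ∣ k := by
  rw [← zpow_natCast g k, zpow_mem_zpowers_pow_iff hd, Int.natCast_dvd_natCast]

/-- For squarefree `d`, divisibility by `d` is divisibility by all its prime factors. -/
theorem squarefree_dvd_iff {d : ℕ} (hsq : Squarefree d) (m : ℕ) :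
    d ∣ m ↔ ∀ q : ℕ, q.Prime → q ∣ d → q ∣ m := by
  constructor
  · intro h q _ hqd
    exact dvd_trans hqd h
  · intro h
    rw [← Nat.prod_primeFactors_of_squarefree hsq]
    apply Finset.prod_primes_dvd
    · intro a ha
      exact (Nat.prime_of_mem_primeFactors ha).prime
    · intro a ha
      exact h a (Nat.prime_of_mem_primeFactors ha) (Nat.dvd_of_mem_primeFactors ha)

/-- In the cyclic group `⟨g⟩`, for squarefree `d ∣ orderOf g`:
`s ∈ ⟨g ^ d⟩ ↔ s ∈ ⟨g ^ q⟩` for all primes `q ∣ d`. -/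
theorem mem_zpowers_pow_iff_forall_prime {g s : G} (hs : s ∈ Subgroup.zpowers g) {d : ℕ}
    (hd : d ∣ orderOf g) (hsq : Squarefree d) :
    s ∈ Subgroup.zpowers (g ^ d) ↔
      ∀ q : ℕ, q.Prime → q ∣ d → s ∈ Subgroup.zpowers (g ^ q) := by
  obtain ⟨z, rfl⟩ := hs
  rw [zpow_mem_zpowers_pow_iff hd, Int.natCast_dvd, squarefree_dvd_iff hsq]
  refine forall_congr' fun q => forall_congr' fun _ => ?_
  constructor
  · intro h hqd
    rw [zpow_mem_zpowers_pow_iff (dvd_trans hqd hd), Int.natCast_dvd]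
    exact h hqd
  · intro h hqd
    have := h hqd
    rwa [zpow_mem_zpowers_pow_iff (dvd_trans hqd hd), Int.natCast_dvd] at this

/-- An element of a finite cyclic group `⟨g⟩` lying in none of the maximal subgroups `⟨g ^ q⟩`
(`q ∣ orderOf g` prime) generates `⟨g⟩`. -/
theorem zpowers_eq_of_forall_prime_not_mem {g s : G} (hg : IsOfFinOrder g)
    (hs : s ∈ Subgroup.zpowers g)
    (h : ∀ q : ℕ, q.Prime → q ∣ orderOf g → s ∉ Subgroup.zpowers (g ^ q)) :
    Subgroup.zpowers s = Subgroup.zpowers g := by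
  rw [← hg.mem_powers_iff_mem_zpowers] at hs
  obtain ⟨k, rfl⟩ := hs
  have hcop : Nat.Coprime (orderOf g) k := by
    by_contra hnc
    obtain ⟨q, hq, hqn, hqk⟩ := Nat.Prime.not_coprime_iff_dvd.mp hnc
    exact h q hq hqn ((pow_mem_zpowers_pow_iff hqn k).mpr hqk)
  have hord : orderOf (g ^ k) = orderOf g := hcop.orderOf_pow
  have hle : Subgroup.zpowers (g ^ k) ≤ Subgroup.zpowers g :=
    Subgroup.zpowers_le.mpr (Subgroup.pow_mem _ (Subgroup.mem_zpowers g) k)
  have : Finite (Subgroup.zpowers g) := hg.finite_zpowers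
  apply Subgroup.eq_of_le_of_card_ge hle
  rw [Nat.card_zpowers, Nat.card_zpowers, hord]

end Cyclic

section Tower

open Fermat.Agent.S14 Fermat.Agent.S14.CR

variable {F E L : Type*} [Field F] [NumberField F] [Field E] [NumberField E]
  [Field L] [NumberField L] [Algebra F E] [Algebra E L] [Algebra F L] [IsScalarTower F E L]

omit [NumberField F] [NumberField E] [NumberField L] in
/-- Inertia over an intermediate field is trivial if it is trivial over the base. -/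
theorem inertia_eq_bot_of_tower (P : Ideal (𝓞 L)) (hI : P.inertia (L ≃ₐ[F] L) = ⊥) :
    P.inertia (L ≃ₐ[E] L) = ⊥ := by
  rw [eq_bot_iff]
  intro t ht
  rw [Subgroup.mem_bot]
  have h1 : t.restrictScalars F ∈ P.inertia (L ≃ₐ[F] L) := fun x => ht x
  rw [hI, Subgroup.mem_bot] at h1
  ext x
  exact DFunLike.congr_fun h1 x

/-- An `E`-Frobenius element at `P` is an `F`-Frobenius element as soon as
`N(P ∩ E) = N(P ∩ F)`. -/
theorem isArithFrobAt_restrictScalars_of_absNorm_eq [IsGalois F L] [IsGalois E L]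
    {t : L ≃ₐ[E] L} {P : Ideal (𝓞 L)} (ht : IsArithFrobAt (𝓞 E) t P)
    (hN : Ideal.absNorm (P.under (𝓞 E)) = Ideal.absNorm (P.under (𝓞 F))) :
    IsArithFrobAt (𝓞 F) (t.restrictScalars F) P := by
  intro x
  have h := ht x
  rw [MulSemiringAction.toAlgHom_apply] at h ⊢
  rw [CRCyc.natCard_quot_eq_absNorm] at h ⊢
  rw [← hN]
  exact h

/-- **Frobenius criterion, norm form.** `P` unramified over `F` with Frobenius element `σ`:
`σ` comes from `Gal(L/E)` iff `N(P ∩ E) = N(P ∩ F)`. -/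
theorem exists_restrictScalars_eq_iff_absNorm [IsGalois F L] (P : Ideal (𝓞 L)) [P.IsPrime]
    (hP : P ≠ ⊥) (hI : P.inertia (L ≃ₐ[F] L) = ⊥) {σ : L ≃ₐ[F] L}
    (hσ : IsArithFrobAt (𝓞 F) σ P) :
    (∃ t : L ≃ₐ[E] L, t.restrictScalars F = σ) ↔
      Ideal.absNorm (P.under (𝓞 E)) = Ideal.absNorm (P.under (𝓞 F)) := by
  have : IsGalois E L := IsGalois.tower_top_of_isGalois F E L
  constructor
  · rintro ⟨t, rfl⟩
    exact absNorm_under_eq_of_isArithFrobAt_restrictScalars hP hσ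
  · intro hN
    have : Finite (𝓞 L ⧸ P) := Ideal.finiteQuotientOfFreeOfNeBot P hP
    have ht : IsArithFrobAt (𝓞 E) (arithFrobAt (𝓞 E) (L ≃ₐ[E] L) P) P :=
      IsArithFrobAt.arithFrobAt (𝓞 E) (L ≃ₐ[E] L) P
    refine ⟨arithFrobAt (𝓞 E) (L ≃ₐ[E] L) P, ?_⟩
    exact isArithFrobAt_unique hI (isArithFrobAt_restrictScalars_of_absNorm_eq ht hN) hσ

omit [NumberField L] [Algebra E L] [Algebra F L] [IsScalarTower F E L] in
/-- `N Q = N (Q ∩ F) ↔ f(Q | F) = 1` for a nonzero prime `Q` of `E`. -/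
theorem absNorm_eq_absNorm_under_iff (Q : Ideal (𝓞 E)) [Q.IsPrime] (hQ : Q ≠ ⊥) :
    Ideal.absNorm Q = Ideal.absNorm (Q.under (𝓞 F)) ↔ Q.inertiaDeg (𝓞 F) = 1 := by
  have h := Ideal.absNorm_pow_inertiaDeg (Q.under (𝓞 F)) Q
  have h0 : Q.under (𝓞 F) ≠ ⊥ := fun h0 => hQ (Ideal.eq_bot_of_comap_eq_bot h0)
  have hmax : (Q.under (𝓞 F)).IsMaximal := Ideal.IsPrime.isMaximal inferInstance h0
  have h2 : 2 ≤ Ideal.absNorm (Q.under (𝓞 F)) := by
    have h1 : Ideal.absNorm (Q.under (𝓞 F)) ≠ 1 := by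
      rw [Ne, Ideal.absNorm_eq_one_iff]
      exact hmax.ne_top
    have h00 : Ideal.absNorm (Q.under (𝓞 F)) ≠ 0 := by
      rw [Ne, Ideal.absNorm_eq_zero_iff]
      exact h0
    omega
  constructor
  · intro he
    rw [he] at h
    have := Nat.pow_right_injective h2 (h.trans (pow_one _).symm)
    exact this
  · intro hf
    rw [hf, pow_one] at h
    exact h.symm

/-- **Frobenius criterion, residue degree form.** -/
theorem exists_restrictScalars_eq_iff_inertiaDeg [IsGalois F L] (P : Ideal (𝓞 L)) [P.IsPrime]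
    (hP : P ≠ ⊥) (hI : P.inertia (L ≃ₐ[F] L) = ⊥) {σ : L ≃ₐ[F] L}
    (hσ : IsArithFrobAt (𝓞 F) σ P) :
    (∃ t : L ≃ₐ[E] L, t.restrictScalars F = σ) ↔ (P.under (𝓞 E)).inertiaDeg (𝓞 F) = 1 := by
  have hQ : P.under (𝓞 E) ≠ ⊥ := fun h0 => hP (Ideal.eq_bot_of_comap_eq_bot h0)
  rw [exists_restrictScalars_eq_iff_absNorm P hP hI hσ,
    ← absNorm_eq_absNorm_under_iff (F := F) (P.under (𝓞 E)) hQ, Ideal.under_under]

end Tower

section Intermediate

open Fermat.Agent.S14 Fermat.Agent.S14.CR IntermediateField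

variable {F L : Type*} [Field F] [NumberField F] [Field L] [NumberField L] [Algebra F L]

omit [NumberField F] [NumberField L] in
/-- An element of `Gal(L/F)` comes from `Gal(L/E)` iff it fixes `E`. -/
theorem exists_restrictScalars_eq_iff_mem_fixingSubgroup (E : IntermediateField F L)
    (σ : L ≃ₐ[F] L) :
    (∃ t : L ≃ₐ[E] L, t.restrictScalars F = σ) ↔ σ ∈ E.fixingSubgroup := by
  constructor
  · rintro ⟨t, rfl⟩
    rw [IntermediateField.mem_fixingSubgroup_iff]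
    intro x hx
    exact t.commutes ⟨x, hx⟩
  · intro hσ
    exact ⟨fixingSubgroupEquiv E ⟨σ, hσ⟩, by ext x; rfl⟩

/-- **Frobenius criterion for an intermediate field, norm form.** -/
theorem mem_fixingSubgroup_iff_absNorm [IsGalois F L] (E : IntermediateField F L)
    (P : Ideal (𝓞 L)) [P.IsPrime] (hP : P ≠ ⊥) (hI : P.inertia (L ≃ₐ[F] L) = ⊥)
    {σ : L ≃ₐ[F] L} (hσ : IsArithFrobAt (𝓞 F) σ P) :
    σ ∈ E.fixingSubgroup ↔
      Ideal.absNorm (P.under (𝓞 E)) = Ideal.absNorm (P.under (𝓞 F)) := by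
  rw [← exists_restrictScalars_eq_iff_mem_fixingSubgroup,
    exists_restrictScalars_eq_iff_absNorm P hP hI hσ]

/-- **Frobenius criterion for an intermediate field, residue degree form.** -/
theorem mem_fixingSubgroup_iff_inertiaDeg [IsGalois F L] (E : IntermediateField F L)
    (P : Ideal (𝓞 L)) [P.IsPrime] (hP : P ≠ ⊥) (hI : P.inertia (L ≃ₐ[F] L) = ⊥)
    {σ : L ≃ₐ[F] L} (hσ : IsArithFrobAt (𝓞 F) σ P) :
    σ ∈ E.fixingSubgroup ↔ (P.under (𝓞 E)).inertiaDeg (𝓞 F) = 1 := by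
  rw [← exists_restrictScalars_eq_iff_mem_fixingSubgroup,
    exists_restrictScalars_eq_iff_inertiaDeg P hP hI hσ]

/-- **Frobenius criterion, subgroup form**: `σ ∈ H ↔ N(P ∩ L^H) = N(P ∩ F)`. -/
theorem mem_iff_absNorm_fixedField [IsGalois F L] (H : Subgroup (L ≃ₐ[F] L))
    (P : Ideal (𝓞 L)) [P.IsPrime] (hP : P ≠ ⊥) (hI : P.inertia (L ≃ₐ[F] L) = ⊥)
    {σ : L ≃ₐ[F] L} (hσ : IsArithFrobAt (𝓞 F) σ P) :
    σ ∈ H ↔
      Ideal.absNorm (P.under (𝓞 (fixedField H))) = Ideal.absNorm (P.under (𝓞 F)) := by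
  rw [← mem_fixingSubgroup_iff_absNorm (fixedField H) P hP hI hσ, fixingSubgroup_fixedField]

/-- **Frobenius criterion, subgroup form, residue degree**. -/
theorem mem_iff_inertiaDeg_fixedField [IsGalois F L] (H : Subgroup (L ≃ₐ[F] L))
    (P : Ideal (𝓞 L)) [P.IsPrime] (hP : P ≠ ⊥) (hI : P.inertia (L ≃ₐ[F] L) = ⊥)
    {σ : L ≃ₐ[F] L} (hσ : IsArithFrobAt (𝓞 F) σ P) :
    σ ∈ H ↔ (P.under (𝓞 (fixedField H))).inertiaDeg (𝓞 F) = 1 := by
  rw [← mem_fixingSubgroup_iff_inertiaDeg (fixedField H) P hP hI hσ, fixingSubgroup_fixedField]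

/-- **Assembly, norm form.** A prime `P` of `L`, unramified over `F`, of degree one over
`L^⟨g⟩` and not of degree one over `L^⟨g^q⟩` for any prime `q ∣ orderOf g`, has a Frobenius element
generating `⟨g⟩`. -/
theorem exists_isArithFrobAt_zpowers_eq [IsGalois F L] (g : L ≃ₐ[F] L)
    (P : Ideal (𝓞 L)) [P.IsPrime] (hP : P ≠ ⊥) (hI : P.inertia (L ≃ₐ[F] L) = ⊥)
    (hdeg : Ideal.absNorm (P.under (𝓞 (fixedField (Subgroup.zpowers g)))) =
      Ideal.absNorm (P.under (𝓞 F)))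
    (hgood : ∀ q : ℕ, q.Prime → q ∣ orderOf g →
      Ideal.absNorm (P.under (𝓞 (fixedField (Subgroup.zpowers (g ^ q))))) ≠
        Ideal.absNorm (P.under (𝓞 F))) :
    ∃ σ : L ≃ₐ[F] L, IsArithFrobAt (𝓞 F) σ P ∧ Subgroup.zpowers σ = Subgroup.zpowers g := by
  have : Finite (𝓞 L ⧸ P) := Ideal.finiteQuotientOfFreeOfNeBot P hP
  have hσ : IsArithFrobAt (𝓞 F) (arithFrobAt (𝓞 F) (L ≃ₐ[F] L) P) P :=
    IsArithFrobAt.arithFrobAt (𝓞 F) (L ≃ₐ[F] L) P
  refine ⟨_, hσ, ?_⟩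
  apply zpowers_eq_of_forall_prime_not_mem (isOfFinOrder_of_finite g)
  · exact (mem_iff_absNorm_fixedField _ P hP hI hσ).mpr hdeg
  · intro q hq hqn hmem
    exact hgood q hq hqn ((mem_iff_absNorm_fixedField _ P hP hI hσ).mp hmem)

end Intermediate

section Ramified

open Fermat.Agent.S14

variable (K L : Type*) [Field K] [NumberField K] [Field L] [NumberField L] [Algebra K L]
  [IsGalois K L]

variable {K L} in
/-- Trivial inertia group ⟹ ramification index one (Galois case). -/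
theorem ramificationIdx_eq_one_of_inertia_eq_bot' (P : Ideal (𝓞 L)) [P.IsPrime] (hP : P ≠ ⊥)
    (hI : P.inertia (L ≃ₐ[K] L) = ⊥) : P.ramificationIdx (𝓞 K) = 1 := by
  have h𝔭 : (P.under (𝓞 K)) ≠ ⊥ := fun h0 => hP (Ideal.eq_bot_of_comap_eq_bot h0)
  rw [← Ideal.ramificationIdxIn_eq_ramificationIdx (P.under (𝓞 K)) P (L ≃ₐ[K] L),
    ← Ideal.card_inertia_eq_ramificationIdxIn (G := L ≃ₐ[K] L) (P.under (𝓞 K)) P, hI]
  simp

variable {K L} in
/-- Ramification index one ⟹ trivial inertia group (Galois case). -/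
theorem inertia_eq_bot_of_ramificationIdx_eq_one' (P : Ideal (𝓞 L)) [P.IsPrime] (hP : P ≠ ⊥)
    (he : P.ramificationIdx (𝓞 K) = 1) : P.inertia (L ≃ₐ[K] L) = ⊥ := by
  have h𝔭 : (P.under (𝓞 K)) ≠ ⊥ := fun h0 => hP (Ideal.eq_bot_of_comap_eq_bot h0)
  rw [← Ideal.ramificationIdxIn_eq_ramificationIdx (P.under (𝓞 K)) P (L ≃ₐ[K] L),
    ← Ideal.card_inertia_eq_ramificationIdxIn (G := L ≃ₐ[K] L) (P.under (𝓞 K)) P] at he
  exact (Subgroup.card_eq_one).mp he

/-- Only finitely many primes of `L` are ramified over `K`. -/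
theorem finite_ramified :
    {P : Ideal (𝓞 L) | P.IsPrime ∧ P ≠ ⊥ ∧ P.inertia (L ≃ₐ[K] L) ≠ ⊥}.Finite := by
  have hD : differentIdeal (𝓞 K) (𝓞 L) ≠ ⊥ := differentIdeal_ne_bot
  refine Set.Finite.subset (Ideal.finite_setOfPred_absNorm_le
    (Ideal.absNorm (differentIdeal (𝓞 K) (𝓞 L)))) ?_
  rintro P ⟨hPp, hP0, hI⟩
  have hdvd : P ∣ differentIdeal (𝓞 K) (𝓞 L) := by
    rw [dvd_differentIdeal_iff]
    intro hunr
    apply hI
    apply inertia_eq_bot_of_ramificationIdx_eq_one' P hP0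
    exact Ideal.ramificationIdx_eq_one_of_isUnramifiedAt
  have hpos : 0 < Ideal.absNorm (differentIdeal (𝓞 K) (𝓞 L)) :=
    Nat.pos_of_ne_zero (by rw [Ne, Ideal.absNorm_eq_zero_iff]; exact hD)
  exact Nat.le_of_dvd hpos (Ideal.absNorm_dvd_absNorm_of_le (Ideal.le_of_dvd hdvd))

end Ramified

section Reduction

open Fermat.Agent.S14 Fermat.Agent.S14.CR IntermediateField

variable {K L : Type*} [Field K] [NumberField K] [Field L] [NumberField L] [Algebra K L]

omit [NumberField L] [Algebra K L] in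
/-- A prime whose absolute norm is a prime number has degree one over any subfield. -/
theorem absNorm_eq_absNorm_under_of_prime {F : Type*} [Field F] [NumberField F] [Algebra K F]
    (Q : Ideal (𝓞 F)) [Q.IsPrime] (hp : (Ideal.absNorm Q).Prime) :
    Ideal.absNorm Q = Ideal.absNorm (Q.under (𝓞 K)) := by
  have h := Ideal.absNorm_pow_inertiaDeg (Q.under (𝓞 K)) Q
  exact ((hp.pow_eq_iff).mp h).1.symm

omit [NumberField K] [NumberField L] in
/-- The image of `Gal(L/F) → Gal(L/K)` is the fixing subgroup of `F`. -/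
theorem range_restrictScalarsHom (F : IntermediateField K L) :
    (AlgEquiv.restrictScalarsHom K : (L ≃ₐ[F] L) →* (L ≃ₐ[K] L)).range = F.fixingSubgroup := by
  ext σ
  rw [MonoidHom.mem_range, ← exists_restrictScalars_eq_iff_mem_fixingSubgroup]
  rfl

variable [IsGalois K L]

/-- **Reduction of Frobenius' theorem to the cyclic case.** If the cyclic extension
`L / L^⟨g⟩` has, outside any finite set, a prime of degree one (over `ℚ`) with a Frobenius element
generating the Galois group, then `L/K` has a degree one unramified prime, outside any given finite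
set of primes of `K`, with a Frobenius element generating `⟨g⟩`. -/
theorem exists_frob_zpowers_eq_of_cyclic (g : L ≃ₐ[K] L) (B : Finset (Ideal (𝓞 K)))
    (hcyc : ∀ B' : Finset (Ideal (𝓞 (fixedField (Subgroup.zpowers g)))),
      ∃ (P : Ideal (𝓞 L)) (σ' : L ≃ₐ[fixedField (Subgroup.zpowers g)] L), P.IsPrime ∧ P ≠ ⊥ ∧
        P.under (𝓞 (fixedField (Subgroup.zpowers g))) ∉ B' ∧
        (Ideal.absNorm (P.under (𝓞 (fixedField (Subgroup.zpowers g))))).Prime ∧
        IsArithFrobAt (𝓞 (fixedField (Subgroup.zpowers g))) σ' P ∧ Subgroup.zpowers σ' = ⊤) :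
    ∃ (P : Ideal (𝓞 L)) (σ : L ≃ₐ[K] L), P.IsPrime ∧ P ≠ ⊥ ∧ P.under (𝓞 K) ∉ B ∧
      (Ideal.absNorm (P.under (𝓞 K))).Prime ∧ P.inertia (L ≃ₐ[K] L) = ⊥ ∧
      IsArithFrobAt (𝓞 K) σ P ∧ Subgroup.zpowers σ = Subgroup.zpowers g := by
  classical
  set F := fixedField (Subgroup.zpowers g) with hF
  -- the finite set of primes of `F` to avoid
  have hfin1 : {Q : Ideal (𝓞 F) | Q.IsPrime ∧ Q.under (𝓞 K) ∈ B}.Finite :=
    NonSplit.finite_primes_above (L := F) B
  have hfin2 : ((fun P : Ideal (𝓞 L) => P.under (𝓞 F)) ''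
      {P : Ideal (𝓞 L) | P.IsPrime ∧ P ≠ ⊥ ∧ P.inertia (L ≃ₐ[K] L) ≠ ⊥}).Finite :=
    (finite_ramified K L).image _
  obtain ⟨P, σ', hPp, hP0, hPB, hprime, hσ', hgen⟩ := hcyc (hfin1.toFinset ∪ hfin2.toFinset)
  rw [Finset.mem_union, not_or, Set.Finite.mem_toFinset, Set.Finite.mem_toFinset] at hPB
  have huu : (P.under (𝓞 F)).under (𝓞 K) = P.under (𝓞 K) := Ideal.under_under _
  have hN : Ideal.absNorm (P.under (𝓞 F)) = Ideal.absNorm (P.under (𝓞 K)) := by
    rw [absNorm_eq_absNorm_under_of_prime (K := K) (P.under (𝓞 F)) hprime, huu]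
  have hGal : IsGalois F L := IsGalois.tower_top_of_isGalois K F L
  refine ⟨P, σ'.restrictScalars K, hPp, hP0, ?_, ?_, ?_, ?_, ?_⟩
  · intro hB
    apply hPB.1
    exact ⟨inferInstance, by rw [huu]; exact hB⟩
  · rw [← hN]; exact hprime
  · by_contra hI
    exact hPB.2 ⟨P, ⟨hPp, hP0, hI⟩, rfl⟩
  · exact isArithFrobAt_restrictScalars_of_absNorm_eq hσ' hN
  · have h1 : Subgroup.zpowers (σ'.restrictScalars K) =
        (Subgroup.zpowers σ').map (AlgEquiv.restrictScalarsHom K) := by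
      rw [MonoidHom.map_zpowers]; rfl
    rw [h1, hgen, ← MonoidHom.range_eq_map, range_restrictScalarsHom, hF,
      fixingSubgroup_fixedField]

end Reduction

section Split

open Fermat.Agent.S14 Fermat.Agent.S14.CR IntermediateField

variable {F L : Type*} [Field F] [NumberField F] [Field L] [NumberField L] [Algebra F L]

/-- The `NonSplit`-style splitting predicate: the prime `𝔭` of `F` has a prime of `E` above it
with `e = f = 1` (for `E/F` Galois: `𝔭` splits completely in `E`). -/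
def SplitsIn (E : Type*) [Field E] [NumberField E] [Algebra F E] (𝔭 : Ideal (𝓞 F)) : Prop :=
  ∃ Q : Ideal (𝓞 E), Q.IsPrime ∧ Q.under (𝓞 F) = 𝔭 ∧ Q.ramificationIdx (𝓞 F) = 1 ∧
    Q.inertiaDeg (𝓞 F) = 1

/-- **Frobenius criterion, splitting form.** `P` a prime of `L` unramified over `F` with Frobenius
element `σ`, `E/F` a Galois subextension: `P ∩ F` splits completely in `E` iff `σ ∈ Gal(L/E)`. -/
theorem splitsIn_iff_mem_fixingSubgroup [IsGalois F L] (E : IntermediateField F L) [IsGalois F E]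
    (P : Ideal (𝓞 L)) [P.IsPrime] (hP : P ≠ ⊥) (hI : P.inertia (L ≃ₐ[F] L) = ⊥)
    {σ : L ≃ₐ[F] L} (hσ : IsArithFrobAt (𝓞 F) σ P) :
    SplitsIn E (P.under (𝓞 F)) ↔ σ ∈ E.fixingSubgroup := by
  rw [mem_fixingSubgroup_iff_inertiaDeg E P hP hI hσ]
  have huu : (P.under (𝓞 E)).under (𝓞 F) = P.under (𝓞 F) := Ideal.under_under _
  constructor
  · rintro ⟨Q, hQp, hQu, he, hf⟩
    exact ((NonSplit.split_all Q hQu he hf).1 (P.under (𝓞 E)) inferInstance huu).2.1
  · intro hf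
    refine ⟨P.under (𝓞 E), inferInstance, huu, ?_, hf⟩
    have h1 := ramificationIdx_eq_one_of_inertia_eq_bot' P hP hI
    have h2 := Ideal.ramificationIdx_tower (R := 𝓞 F) (P.under (𝓞 E)) P
    rw [h1] at h2
    exact Nat.eq_one_of_mul_eq_one_right h2.symm

/-- Subgroup form of `splitsIn_iff_mem_fixingSubgroup`. -/
theorem splitsIn_fixedField_iff_mem [IsGalois F L] (H : Subgroup (L ≃ₐ[F] L)) [H.Normal]
    (P : Ideal (𝓞 L)) [P.IsPrime] (hP : P ≠ ⊥) (hI : P.inertia (L ≃ₐ[F] L) = ⊥)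
    {σ : L ≃ₐ[F] L} (hσ : IsArithFrobAt (𝓞 F) σ P) :
    SplitsIn (fixedField H) (P.under (𝓞 F)) ↔ σ ∈ H := by
  rw [splitsIn_iff_mem_fixingSubgroup (fixedField H) P hP hI hσ, fixingSubgroup_fixedField]

/-- `[L^H : F] = (G : H)`. -/
theorem finrank_fixedField_eq_index [IsGalois F L] (H : Subgroup (L ≃ₐ[F] L)) :
    Module.finrank F (fixedField H) = H.index := by
  rw [IntermediateField.finrank_eq_fixingSubgroup_index, fixingSubgroup_fixedField]

end Split

section CyclicExt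

open Fermat.Agent.S14 Fermat.Agent.S14.CR IntermediateField

/-- In a cyclic group every subgroup is normal. -/
theorem normal_of_zpowers_eq_top {G : Type*} [Group G] {g : G} (hg : Subgroup.zpowers g = ⊤)
    (H : Subgroup G) : H.Normal := by
  have hcomm : ∀ a b : G, a * b = b * a := by
    intro a b
    obtain ⟨i, rfl⟩ : a ∈ Subgroup.zpowers g := hg ▸ Subgroup.mem_top a
    obtain ⟨j, rfl⟩ : b ∈ Subgroup.zpowers g := hg ▸ Subgroup.mem_top b
    rw [← zpow_add, ← zpow_add, add_comm]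
  exact ⟨fun n hn a => by rw [hcomm a n, mul_inv_cancel_right]; exact hn⟩

/-- In a finite cyclic group `⟨g⟩ = G`, the subgroup `⟨g ^ d⟩` has index `d` for `d ∣ orderOf g`. -/
theorem index_zpowers_pow {G : Type*} [Group G] [Finite G] {g : G}
    (hg : Subgroup.zpowers g = ⊤) {d : ℕ} (hd : d ∣ orderOf g) :
    (Subgroup.zpowers (g ^ d)).index = d := by
  have hn : 0 < orderOf g := orderOf_pos g
  have hd0 : d ≠ 0 := by
    rintro rfl
    rw [zero_dvd_iff] at hd
    omega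
  have hcard : Nat.card G = orderOf g := by
    rw [← Nat.card_zpowers, hg, Subgroup.card_top]
  have h1 := Subgroup.index_mul_card (Subgroup.zpowers (g ^ d))
  rw [Nat.card_zpowers, orderOf_pow_of_dvd hd0 hd, hcard] at h1
  obtain ⟨m, hm⟩ := hd
  have hm0 : 0 < m := by
    rcases Nat.eq_zero_or_pos m with rfl | h
    · rw [mul_zero] at hm; omega
    · exact h
  rw [hm, Nat.mul_div_cancel_left m (Nat.pos_of_ne_zero hd0)] at h1
  exact Nat.eq_of_mul_eq_mul_right hm0 h1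

variable {F L : Type*} [Field F] [NumberField F] [Field L] [NumberField L] [Algebra F L]
  [IsGalois F L] {g : L ≃ₐ[F] L}

omit [NumberField F] [NumberField L] in
/-- The layers `E_d = L^⟨g^d⟩` of a cyclic extension are Galois over the base. -/
theorem isGalois_fixedField_zpowers_pow (hg : Subgroup.zpowers g = ⊤) (d : ℕ) :
    IsGalois F (fixedField (Subgroup.zpowers (g ^ d))) := by
  have := normal_of_zpowers_eq_top hg (Subgroup.zpowers (g ^ d))
  infer_instance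

/-- `[E_d : F] = d` for `d ∣ orderOf g = [L : F]`. -/
theorem finrank_fixedField_zpowers_pow (hg : Subgroup.zpowers g = ⊤) {d : ℕ}
    (hd : d ∣ orderOf g) :
    Module.finrank F (fixedField (Subgroup.zpowers (g ^ d))) = d := by
  rw [finrank_fixedField_eq_index, index_zpowers_pow hg hd]

/-- **Splitting in the layers of a cyclic extension**, prime-of-`L` form: for squarefree
`d ∣ [L:F]`, an unramified prime splits completely in `E_d` iff it splits completely in `E_q` for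
all primes `q ∣ d`. -/
theorem splitsIn_zpowers_pow_iff (hg : Subgroup.zpowers g = ⊤) {d : ℕ} (hd : d ∣ orderOf g)
    (hsq : Squarefree d) (P : Ideal (𝓞 L)) [P.IsPrime] (hP : P ≠ ⊥)
    (hI : P.inertia (L ≃ₐ[F] L) = ⊥) :
    SplitsIn (fixedField (Subgroup.zpowers (g ^ d))) (P.under (𝓞 F)) ↔
      ∀ q : ℕ, q.Prime → q ∣ d →
        SplitsIn (fixedField (Subgroup.zpowers (g ^ q))) (P.under (𝓞 F)) := by
  have : Finite (𝓞 L ⧸ P) := Ideal.finiteQuotientOfFreeOfNeBot P hP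
  have hσ : IsArithFrobAt (𝓞 F) (arithFrobAt (𝓞 F) (L ≃ₐ[F] L) P) P :=
    IsArithFrobAt.arithFrobAt (𝓞 F) (L ≃ₐ[F] L) P
  have hmem : arithFrobAt (𝓞 F) (L ≃ₐ[F] L) P ∈ Subgroup.zpowers g := hg ▸ Subgroup.mem_top _
  have hnorm := fun H : Subgroup (L ≃ₐ[F] L) => normal_of_zpowers_eq_top hg H
  rw [splitsIn_fixedField_iff_mem _ P hP hI hσ, mem_zpowers_pow_iff_forall_prime hmem hd hsq]
  refine forall_congr' fun q => forall_congr' fun _ => forall_congr' fun _ => ?_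
  rw [splitsIn_fixedField_iff_mem _ P hP hI hσ]

/-- Same, prime-of-`F` form. -/
theorem splitsIn_zpowers_pow_iff' (hg : Subgroup.zpowers g = ⊤) {d : ℕ} (hd : d ∣ orderOf g)
    (hsq : Squarefree d) (𝔭 : Ideal (𝓞 F)) [𝔭.IsPrime] (h𝔭 : 𝔭 ≠ ⊥)
    (hunr : ∀ P : Ideal (𝓞 L), P.IsPrime → P.under (𝓞 F) = 𝔭 → P.inertia (L ≃ₐ[F] L) = ⊥) :
    SplitsIn (fixedField (Subgroup.zpowers (g ^ d))) 𝔭 ↔
      ∀ q : ℕ, q.Prime → q ∣ d → SplitsIn (fixedField (Subgroup.zpowers (g ^ q))) 𝔭 := by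
  obtain ⟨P, hPp, hP0, hPu⟩ := exists_prime_over F L h𝔭
  have := splitsIn_zpowers_pow_iff hg hd hsq P hP0 (hunr P hPp hPu)
  rwa [hPu] at this

/-- **Good primes have generating Frobenius**: if the unramified prime `P` of the cyclic extension
`L/F` (generator `g`) is such that `P ∩ F` splits completely in no `E_q = L^⟨g^q⟩`
(`q ∣ [L:F]` prime), then its Frobenius element generates `Gal(L/F)`. -/
theorem exists_isArithFrobAt_zpowers_eq_top (hg : Subgroup.zpowers g = ⊤) (P : Ideal (𝓞 L))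
    [P.IsPrime] (hP : P ≠ ⊥) (hI : P.inertia (L ≃ₐ[F] L) = ⊥)
    (hgood : ∀ q : ℕ, q.Prime → q ∣ orderOf g →
      ¬ SplitsIn (fixedField (Subgroup.zpowers (g ^ q))) (P.under (𝓞 F))) :
    ∃ σ : L ≃ₐ[F] L, IsArithFrobAt (𝓞 F) σ P ∧ Subgroup.zpowers σ = ⊤ := by
  have : Finite (𝓞 L ⧸ P) := Ideal.finiteQuotientOfFreeOfNeBot P hP
  have hσ : IsArithFrobAt (𝓞 F) (arithFrobAt (𝓞 F) (L ≃ₐ[F] L) P) P :=
    IsArithFrobAt.arithFrobAt (𝓞 F) (L ≃ₐ[F] L) P
  have hnorm := fun H : Subgroup (L ≃ₐ[F] L) => normal_of_zpowers_eq_top hg H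
  refine ⟨_, hσ, ?_⟩
  rw [← hg]
  apply zpowers_eq_of_forall_prime_not_mem (isOfFinOrder_of_finite g)
  · exact hg ▸ Subgroup.mem_top _
  · intro q hq hqn hmem
    exact hgood q hq hqn ((splitsIn_fixedField_iff_mem _ P hP hI hσ).mpr hmem)

/-- The primes of `F` over which some prime of `L` is ramified form a finite set. -/
theorem finite_ramified_under (F L : Type*) [Field F] [NumberField F] [Field L] [NumberField L]
    [Algebra F L] [IsGalois F L] :
    {𝔭 : Ideal (𝓞 F) | ∃ P : Ideal (𝓞 L), P.IsPrime ∧ P ≠ ⊥ ∧ P.under (𝓞 F) = 𝔭 ∧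
      P.inertia (L ≃ₐ[F] L) ≠ ⊥}.Finite := by
  refine Set.Finite.subset ((finite_ramified F L).image (fun P => P.under (𝓞 F))) ?_
  rintro 𝔭 ⟨P, hPp, hP0, hPu, hI⟩
  exact ⟨P, ⟨hPp, hP0, hI⟩, hPu⟩

/-- **Cyclic case from the analytic input.** If outside every finite set there is a degree one
prime of `F` splitting completely in none of the `E_q`, then outside every finite set there is a
degree one prime of `F` and a prime of `L` above it whose Frobenius generates `Gal(L/F)`. -/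
theorem exists_frob_generator_of_not_splitsIn (hg : Subgroup.zpowers g = ⊤)
    (han : ∀ B : Finset (Ideal (𝓞 F)), ∃ 𝔭 : Ideal (𝓞 F), 𝔭.IsPrime ∧ 𝔭 ≠ ⊥ ∧ 𝔭 ∉ B ∧
      (Ideal.absNorm 𝔭).Prime ∧ ∀ q : ℕ, q.Prime → q ∣ orderOf g →
        ¬ SplitsIn (fixedField (Subgroup.zpowers (g ^ q))) 𝔭)
    (B : Finset (Ideal (𝓞 F))) :
    ∃ (P : Ideal (𝓞 L)) (σ : L ≃ₐ[F] L), P.IsPrime ∧ P ≠ ⊥ ∧ P.under (𝓞 F) ∉ B ∧
      (Ideal.absNorm (P.under (𝓞 F))).Prime ∧ P.inertia (L ≃ₐ[F] L) = ⊥ ∧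
      IsArithFrobAt (𝓞 F) σ P ∧ Subgroup.zpowers σ = ⊤ := by
  classical
  obtain ⟨𝔭, h𝔭p, h𝔭0, h𝔭B, hprime, hgood⟩ := han (B ∪ (finite_ramified_under F L).toFinset)
  rw [Finset.mem_union, not_or, Set.Finite.mem_toFinset] at h𝔭B
  obtain ⟨P, hPp, hP0, hPu⟩ := exists_prime_over F L h𝔭0
  have hI : P.inertia (L ≃ₐ[F] L) = ⊥ := by
    by_contra hI
    exact h𝔭B.2 ⟨P, hPp, hP0, hPu, hI⟩
  obtain ⟨σ, hσ, hgen⟩ := exists_isArithFrobAt_zpowers_eq_top hg P hP0 hI (by rwa [hPu])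
  exact ⟨P, σ, hPp, hP0, by rw [hPu]; exact h𝔭B.1, by rw [hPu]; exact hprime, hI, hσ, hgen⟩

end CyclicExt

section Final

open Fermat.Agent.S14 Fermat.Agent.S14.CR IntermediateField

universe u v

/-- **The analytic input (CYC-AN)** of Frobenius' theorem: in every cyclic extension `L/F` of number
fields with generator `g`, outside every finite set of primes there is a degree one prime of `F`
which splits completely in none of the layers `E_q = L^⟨g^q⟩`, `q ∣ [L:F]` prime. -/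
def CyclicAnalytic : Prop :=
  ∀ (F : Type u) (L : Type v) [Field F] [NumberField F] [Field L] [NumberField L] [Algebra F L]
    [IsGalois F L] (g : L ≃ₐ[F] L), Subgroup.zpowers g = ⊤ →
    ∀ B : Finset (Ideal (𝓞 F)), ∃ 𝔭 : Ideal (𝓞 F), 𝔭.IsPrime ∧ 𝔭 ≠ ⊥ ∧ 𝔭 ∉ B ∧
      (Ideal.absNorm 𝔭).Prime ∧ ∀ q : ℕ, q.Prime → q ∣ orderOf g →
        ¬ SplitsIn (fixedField (Subgroup.zpowers (g ^ q))) 𝔭

variable {K : Type u} {L : Type v} [Field K] [NumberField K] [Field L] [NumberField L]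
  [Algebra K L]

omit [NumberField K] [NumberField L] in
/-- `Gal(L / L^⟨g⟩)` is cyclic, generated by (the element corresponding to) `g`. -/
theorem exists_generator_fixedField_zpowers [FiniteDimensional K L] (g : L ≃ₐ[K] L) :
    ∃ g' : L ≃ₐ[fixedField (Subgroup.zpowers g)] L, g'.restrictScalars K = g ∧
      Subgroup.zpowers g' = ⊤ := by
  have hmem : g ∈ (fixedField (Subgroup.zpowers g)).fixingSubgroup := by
    rw [fixingSubgroup_fixedField]; exact Subgroup.mem_zpowers g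
  obtain ⟨g', hg'⟩ := (exists_restrictScalars_eq_iff_mem_fixingSubgroup _ g).mpr hmem
  refine ⟨g', hg', ?_⟩
  rw [eq_top_iff]
  intro t _
  have ht : t.restrictScalars K ∈ (fixedField (Subgroup.zpowers g)).fixingSubgroup :=
    (exists_restrictScalars_eq_iff_mem_fixingSubgroup _ _).mp ⟨t, rfl⟩
  rw [fixingSubgroup_fixedField] at ht
  obtain ⟨k, hk⟩ := ht
  refine ⟨k, ?_⟩
  apply AlgEquiv.restrictScalarsHom_injective K
  simp only
  rw [map_zpow]
  show (g'.restrictScalars K) ^ k = t.restrictScalars K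
  rw [hg']
  exact hk

/-- **Frobenius' theorem from its analytic input.** Target shape of J4-FROB (helper77, board 1150;
`FrobGenQ` of `GJ/FrobLift.lean` at `K = ℚ`). -/
theorem exists_frob_zpowers_eq_of_cyclicAnalytic (han : CyclicAnalytic.{v, v}) [IsGalois K L]
    (g : L ≃ₐ[K] L) (B : Finset (Ideal (𝓞 K))) :
    ∃ (P : Ideal (𝓞 L)) (σ : L ≃ₐ[K] L), P.IsPrime ∧ P ≠ ⊥ ∧ P.under (𝓞 K) ∉ B ∧
      (Ideal.absNorm (P.under (𝓞 K))).Prime ∧ P.inertia (L ≃ₐ[K] L) = ⊥ ∧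
      IsArithFrobAt (𝓞 K) σ P ∧ Subgroup.zpowers σ = Subgroup.zpowers g := by
  apply exists_frob_zpowers_eq_of_cyclic g B
  intro B'
  obtain ⟨g', -, hg'⟩ := exists_generator_fixedField_zpowers g
  have hGal : IsGalois (fixedField (Subgroup.zpowers g)) L :=
    IsGalois.tower_top_of_isGalois K _ L
  obtain ⟨P, σ', hPp, hP0, hPB, hprime, -, hσ', hgen⟩ :=
    exists_frob_generator_of_not_splitsIn hg'
      (han (fixedField (Subgroup.zpowers g)) L g' hg') B'
  exact ⟨P, σ', hPp, hP0, hPB, hprime, hσ', hgen⟩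

/-- Corollary: every element of the Galois group is a power of a Frobenius element at an
unramified degree one prime outside `B`. -/
theorem exists_frob_pow_eq_of_cyclicAnalytic (han : CyclicAnalytic.{v, v}) [IsGalois K L]
    (g : L ≃ₐ[K] L) (B : Finset (Ideal (𝓞 K))) :
    ∃ (P : Ideal (𝓞 L)) (σ : L ≃ₐ[K] L) (j : ℕ), P.IsPrime ∧ P ≠ ⊥ ∧ P.under (𝓞 K) ∉ B ∧
      (Ideal.absNorm (P.under (𝓞 K))).Prime ∧ P.inertia (L ≃ₐ[K] L) = ⊥ ∧
      IsArithFrobAt (𝓞 K) σ P ∧ g = σ ^ j := by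
  obtain ⟨P, σ, hPp, hP0, hPB, hprime, hI, hσ, hgen⟩ :=
    exists_frob_zpowers_eq_of_cyclicAnalytic han g B
  have hmem : g ∈ Subgroup.zpowers σ := hgen ▸ Subgroup.mem_zpowers g
  rw [← (isOfFinOrder_of_finite σ).mem_powers_iff_mem_zpowers] at hmem
  obtain ⟨j, hj⟩ := hmem
  exact ⟨P, σ, j, hPp, hP0, hPB, hprime, hI, hσ, hj.symm⟩

end Final

end Fermat.Agent.GJ.FrobAlg
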