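/-
GATE-J / J4-FROB leaf (L2) (helper26): ABSTRACT inclusion–exclusion + divergence.

`Q` a finite set of integers `q ≥ 2` (the primes dividing the order of `g`), `U X` finite sets of
"primes of norm `≤ X`", weights `w s a ∈ [0,1]` (`= N𝔭^(-s)`), `split q a` predicates ("`a` splits
completely in `E_q`"), `S T X` the elements of `U X` that split for all `q ∈ T`.  If for every
`T ⊆ Q` the sum of `w s` over `S T X` is `(∏ T)⁻¹ (log (1/(s-1)) + O(1))` (for `X ≥ X₀(s)`), then
outside any finite set `B` there is an `a` which splits for NO `q ∈ Q`: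
`∑_{good} w = ∑_T (-1)^|T| ∑_{S T X} w ≥ ∏_{q∈Q} (1 - 1/q) · log (1/(s-1)) - 2^|Q| C → ∞`.
Mathlib only.
-/
import Mathlib

set_option autoImplicit false

open Finset Filter

namespace Fermat.Agent.GJ.FrobLeaf

/-- `∏ (1 - f q) = ∑_T (-1)^|T| ∏_{q ∈ T} f q`. -/
theorem prod_one_sub_eq_sum {R : Type*} [CommRing R] (Q : Finset ℕ) (f : ℕ → R) :
    ∏ q ∈ Q, (1 - f q) = ∑ T ∈ Q.powerset, (-1) ^ T.card * ∏ q ∈ T, f q := by
  classical
  have h := Finset.prod_add (fun q => - f q) (fun _ => (1 : R)) Q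
  simp only [Finset.prod_const_one, mul_one] at h
  rw [show (∏ q ∈ Q, (1 - f q)) = ∏ q ∈ Q, (- f q + 1) from
    Finset.prod_congr rfl (fun _ _ => by ring), h]
  refine Finset.sum_congr rfl fun T _ => ?_
  rw [Finset.prod_neg]

/-- **(L2)** abstract inclusion–exclusion + divergence. -/
theorem exists_good {ι : Type*} (Q : Finset ℕ) (hQ : ∀ q ∈ Q, 2 ≤ q)
    (U : ℕ → Finset ι) (split : ℕ → ι → Prop)
    (S : Finset ℕ → ℕ → Finset ι)
    (hS : ∀ T X a, a ∈ S T X ↔ a ∈ U X ∧ ∀ q ∈ T, split q a)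
    (w : ℝ → ι → ℝ) (hw0 : ∀ s a, 0 ≤ w s a) (hw1 : ∀ s a, 1 < s → w s a ≤ 1)
    (δ C : ℝ) (hδ : 0 < δ)
    (hb : ∀ T, T ⊆ Q → ∀ s : ℝ, 1 < s → s < 1 + δ → ∃ X₀ : ℕ, ∀ X : ℕ, X₀ ≤ X →
      |(∏ q ∈ T, (q : ℝ)) * ∑ a ∈ S T X, w s a - Real.log (1 / (s - 1))| ≤ C)
    (B : Finset ι) : ∃ X, ∃ a ∈ U X, a ∉ B ∧ ∀ q ∈ Q, ¬ split q a := by
  classical
  by_contra hcon
  push Not at hcon
  -- the constant `P = ∏ (1 - 1/q) > 0`
  set P : ℝ := ∏ q ∈ Q, (1 - 1 / (q : ℝ)) with hP
  have hPpos : 0 < P := by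
    refine Finset.prod_pos fun q hq => ?_
    have h2 : (2 : ℝ) ≤ q := by exact_mod_cast hQ q hq
    have : 1 / (q : ℝ) ≤ 1 / 2 := one_div_le_one_div_of_le (by norm_num) h2
    linarith
  -- choice of `s`
  set K : ℝ := ((B.card : ℝ) + 2 ^ Q.card * |C| + 1) / P with hK
  set s : ℝ := 1 + min (δ / 2) (Real.exp (-K)) with hs
  have hmin_pos : 0 < min (δ / 2) (Real.exp (-K)) := lt_min (by linarith) (Real.exp_pos _)
  have hs1 : 1 < s := by rw [hs]; linarith
  have hs2 : s < 1 + δ := by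
    have : min (δ / 2) (Real.exp (-K)) ≤ δ / 2 := min_le_left _ _
    rw [hs]; linarith
  have hL : K ≤ Real.log (1 / (s - 1)) := by
    have h1 : s - 1 = min (δ / 2) (Real.exp (-K)) := by rw [hs]; ring
    rw [h1, one_div, Real.log_inv]
    have h2 : Real.log (min (δ / 2) (Real.exp (-K))) ≤ Real.log (Real.exp (-K)) :=
      Real.log_le_log hmin_pos (min_le_right _ _)
    rw [Real.log_exp] at h2
    linarith
  set L : ℝ := Real.log (1 / (s - 1)) with hLdef
  -- a uniform `X`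
  have hev : ∀ T ∈ Q.powerset, ∀ᶠ X : ℕ in atTop,
      |(∏ q ∈ T, (q : ℝ)) * ∑ a ∈ S T X, w s a - L| ≤ C := by
    intro T hT
    obtain ⟨X₀, h⟩ := hb T (Finset.mem_powerset.mp hT) s hs1 hs2
    exact eventually_atTop.mpr ⟨X₀, h⟩
  obtain ⟨X, hX⟩ := ((Finset.eventually_all (Q.powerset)).mpr hev).exists
  -- the characteristic functions
  set χ : ℕ → ι → ℝ := fun q a => if split q a then 1 else 0 with hχ
  -- LHS: the good sum is bounded by `|B|`
  have hgood : ∀ a ∈ U X, (∏ q ∈ Q, (1 - χ q a)) = if (∀ q ∈ Q, ¬ split q a) then 1 else 0 := by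
    intro a _
    rw [← Finset.prod_boole]
    refine Finset.prod_congr rfl fun q _ => ?_
    simp only [hχ]
    by_cases h : split q a <;> simp [h]
  have hLHS : ∑ a ∈ U X, w s a * ∏ q ∈ Q, (1 - χ q a) ≤ (B.card : ℝ) := by
    calc ∑ a ∈ U X, w s a * ∏ q ∈ Q, (1 - χ q a)
        = ∑ a ∈ U X, if (∀ q ∈ Q, ¬ split q a) then w s a else 0 := by
          refine Finset.sum_congr rfl fun a ha => ?_
          rw [hgood a ha]
          split_ifs <;> simp
      _ = ∑ a ∈ (U X).filter (fun a => ∀ q ∈ Q, ¬ split q a), w s a := by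
          rw [Finset.sum_filter]
      _ ≤ ∑ a ∈ B, w s a := by
          refine Finset.sum_le_sum_of_subset_of_nonneg (fun a ha => ?_) (fun a _ _ => hw0 s a)
          obtain ⟨ha1, ha2⟩ := Finset.mem_filter.mp ha
          by_contra haB
          obtain ⟨q, hq, hsp⟩ := hcon X a ha1 haB
          exact ha2 q hq hsp
      _ ≤ ∑ _a ∈ B, (1 : ℝ) := Finset.sum_le_sum fun a _ => hw1 s a hs1
      _ = (B.card : ℝ) := by simp
  -- RHS: expand the product
  have hexp : ∑ a ∈ U X, w s a * ∏ q ∈ Q, (1 - χ q a) =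
      ∑ T ∈ Q.powerset, (-1) ^ T.card * ∑ a ∈ S T X, w s a := by
    calc ∑ a ∈ U X, w s a * ∏ q ∈ Q, (1 - χ q a)
        = ∑ a ∈ U X, ∑ T ∈ Q.powerset, (-1) ^ T.card * (w s a * ∏ q ∈ T, χ q a) := by
          refine Finset.sum_congr rfl fun a _ => ?_
          rw [prod_one_sub_eq_sum, Finset.mul_sum]
          refine Finset.sum_congr rfl fun T _ => ?_
          ring
      _ = ∑ T ∈ Q.powerset, (-1) ^ T.card * ∑ a ∈ U X, w s a * ∏ q ∈ T, χ q a := by
          rw [Finset.sum_comm]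
          refine Finset.sum_congr rfl fun T _ => ?_
          rw [Finset.mul_sum]
      _ = ∑ T ∈ Q.powerset, (-1) ^ T.card * ∑ a ∈ S T X, w s a := by
          refine Finset.sum_congr rfl fun T _ => ?_
          congr 1
          have hST : S T X = (U X).filter (fun a => ∀ q ∈ T, split q a) := by
            ext a
            rw [hS, Finset.mem_filter]
          rw [hST, Finset.sum_filter]
          refine Finset.sum_congr rfl fun a _ => ?_
          simp only [hχ]
          rw [Finset.prod_boole]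
          split_ifs <;> simp
  -- the main term
  have hC0 : 0 ≤ |C| := abs_nonneg C
  have hterm : ∀ T ∈ Q.powerset, L * ((-1) ^ T.card * ∏ q ∈ T, (1 / (q : ℝ))) - |C| ≤
      (-1) ^ T.card * ∑ a ∈ S T X, w s a := by
    intro T hT
    have hT' := Finset.mem_powerset.mp hT
    set d : ℝ := ∏ q ∈ T, (q : ℝ) with hd
    have hd1 : 1 ≤ d := by
      rw [hd]
      calc (1 : ℝ) = ∏ _q ∈ T, (1 : ℝ) := by simp
        _ ≤ ∏ q ∈ T, (q : ℝ) := by
          refine Finset.prod_le_prod (fun _ _ => zero_le_one) fun q hq => ?_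
          have : (2 : ℝ) ≤ q := by exact_mod_cast hQ q (hT' hq)
          linarith
    have hd0 : 0 < d := by linarith
    have hinv : ∏ q ∈ T, (1 / (q : ℝ)) = 1 / d := by
      rw [hd, Finset.prod_div_distrib]
      simp
    set sm : ℝ := ∑ a ∈ S T X, w s a with hsm
    have he : |d * sm - L| ≤ C := hX T hT
    have he' : |d * sm - L| ≤ |C| := he.trans (le_abs_self C)
    have hsmeq : sm = L * (1 / d) + (d * sm - L) * (1 / d) := by
      field_simp
      ring
    have hsmall : |(d * sm - L) * (1 / d)| ≤ |C| := by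
      rw [abs_mul]
      have h1 : |1 / d| ≤ 1 := by
        rw [abs_of_pos (by positivity)]
        rw [div_le_one hd0]
        exact hd1
      calc |d * sm - L| * |1 / d| ≤ |C| * 1 :=
            mul_le_mul he' h1 (abs_nonneg _) hC0
        _ = |C| := mul_one _
    rw [hinv]
    have hsign : ((-1 : ℝ) ^ T.card = 1) ∨ ((-1 : ℝ) ^ T.card = -1) := neg_one_pow_eq_or ℝ _
    have habs := abs_le.mp hsmall
    rcases hsign with h1 | h1
    · rw [h1, hsmeq]
      nlinarith [habs.1, habs.2]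
    · rw [h1, hsmeq]
      nlinarith [habs.1, habs.2]
  have hRHS : L * P - 2 ^ Q.card * |C| ≤
      ∑ T ∈ Q.powerset, (-1) ^ T.card * ∑ a ∈ S T X, w s a := by
    have h1 : ∑ T ∈ Q.powerset, (L * ((-1) ^ T.card * ∏ q ∈ T, (1 / (q : ℝ))) - |C|) ≤
        ∑ T ∈ Q.powerset, (-1) ^ T.card * ∑ a ∈ S T X, w s a :=
      Finset.sum_le_sum hterm
    have h2 : ∑ T ∈ Q.powerset, (L * ((-1) ^ T.card * ∏ q ∈ T, (1 / (q : ℝ))) - |C|) =
        L * P - 2 ^ Q.card * |C| := by
      rw [Finset.sum_sub_distrib, ← Finset.mul_sum, ← prod_one_sub_eq_sum, Finset.sum_const,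
        Finset.card_powerset]
      simp [hP]
    linarith
  -- contradiction
  have hfinal : (B.card : ℝ) + 2 ^ Q.card * |C| + 1 ≤ L * P := by
    have : K * P ≤ L * P := mul_le_mul_of_nonneg_right hL hPpos.le
    have hKP : K * P = (B.card : ℝ) + 2 ^ Q.card * |C| + 1 := by
      rw [hK]
      field_simp
    linarith
  rw [hexp] at hLHS
  linarith

end Fermat.Agent.GJ.FrobLeaf
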